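import Fermat.Agent.Two.Lower.TateMod
import Mathlib.Algebra.CubicDiscriminant
import Mathlib.AlgebraicGeometry.EllipticCurve.Affine.Point
import Mathlib.Data.Real.Basic

/-!
# The `2`-torsion of a `TwoCurve` spans all matrices

The two-torsion polynomial has no rational root (good supersingular reduction at `2`) and negative
discriminant, so the image on `W[2]` has no fixed vector and contains a transposition.
-/

set_option autoImplicit false
set_option synthInstance.maxHeartbeats 400000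

noncomputable section

namespace Fermat.Agent.Two.Lower

open scoped WeierstrassCurve.Affine
open Matrix ModularCurve Fermat.Agent.Arith
open Fermat.Agent.EC.Rep

/-- An invertible matrix modulo `2` fixing a nonzero vector is an involution. -/
theorem involution_of_fixed : ∀ (X : Matrix (Fin 2) (Fin 2) (ZMod (2 ^ 1)))
    (v : Fin 2 → ZMod (2 ^ 1)), X.det = 1 → v ≠ 0 → X *ᵥ v = v → X * X = 1 := by
  decide

set_option synthInstance.maxSize 1024 in
set_option maxRecDepth 4000 in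
/-- A nontrivial invertible matrix modulo `2` fixes at most one nonzero vector. -/
theorem fixed_unique (X : Matrix (Fin 2) (Fin 2) (ZMod (2 ^ 1)))
    (v w : Fin 2 → ZMod (2 ^ 1)) (hd : X.det = 1) (hX : X ≠ 1) (hv : v ≠ 0) (hw : w ≠ 0)
    (hXv : X *ᵥ v = v) (hXw : X *ᵥ w = w) : w = v := by
  revert v w hd
  revert X
  decide

/-- The permutations of three points without fixed point. -/
theorem derangement_three : ∀ i j k : Fin 3, i ≠ 0 → j ≠ 1 → k ≠ 2 → i ≠ j → i ≠ k → j ≠ k →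
    i = 1 ∧ j = 2 ∧ k = 0 ∨ i = 2 ∧ j = 0 ∧ k = 1 := by
  decide

/-- Two different involutions modulo `2` generate all matrices. -/
theorem mem_span_involutions : ∀ (X Y : Matrix (Fin 2) (Fin 2) (ZMod (2 ^ 1))),
    X * X = 1 → Y * Y = 1 → X ≠ 1 → Y ≠ 1 → X ≠ Y → ∀ i j : Fin 2,
      ∃ a b c d : ZMod (2 ^ 1), a • 1 + b • X + c • Y + d • (X * Y) = Matrix.single i j 1 := by
  decide

/-- Spanning from an involution in the image and no fixed vector. -/
theorem span_eq_top_of_involution {G : Type*} [Group G]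
    (r : G →* Matrix (Fin 2) (Fin 2) (ZMod (2 ^ 1)))
    (hA : ∀ v : Fin 2 → ZMod (2 ^ 1), v ≠ 0 → ∃ g, r g *ᵥ v ≠ v)
    (hB : ∃ σ, ∃ v : Fin 2 → ZMod (2 ^ 1), v ≠ 0 ∧ r σ *ᵥ v = v ∧ r σ ≠ 1) :
    Submodule.span (ZMod (2 ^ 1)) (Set.range r) = ⊤ := by
  have hdet : ∀ g, (r g).det = 1 := fun g => by
    have h : (r g).det * (r g⁻¹).det = 1 := by
      rw [← det_mul, ← map_mul, mul_inv_cancel, map_one, det_one]
    revert h
    generalize (r g).det = x
    generalize (r g⁻¹).det = y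
    revert x y
    decide
  obtain ⟨σ, e, he, hσe, hσ⟩ := hB
  obtain ⟨g, hg⟩ := hA e he
  have hX := involution_of_fixed _ e (hdet σ) he hσe
  have hge : r g *ᵥ e ≠ 0 := fun h0 => he (by
    have := congrArg (r g⁻¹ *ᵥ ·) h0
    rwa [Matrix.mulVec_zero, mulVec_mulVec, ← map_mul, inv_mul_cancel, map_one,
      one_mulVec] at this)
  have hfix : r (g * σ * g⁻¹) *ᵥ (r g *ᵥ e) = r g *ᵥ e := by
    rw [mulVec_mulVec, ← map_mul, inv_mul_cancel_right, map_mul, ← mulVec_mulVec, hσe]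
  have hY := involution_of_fixed _ _ (hdet _) hge hfix
  have hY1 : r (g * σ * g⁻¹) ≠ 1 := fun h => hσ (by
    have e1 : r (g⁻¹ * (g * σ * g⁻¹) * g) = 1 := by
      rw [map_mul, map_mul, h, mul_one, ← map_mul, inv_mul_cancel, map_one]
    rwa [show g⁻¹ * (g * σ * g⁻¹) * g = σ by group] at e1)
  have hne : r σ ≠ r (g * σ * g⁻¹) := fun h => hg (fixed_unique _ e _ (hdet σ) hσ he hge hσe (by rw [h]; exact hfix))
  refine eq_top_iff.mpr fun x _ => ?_
  rw [Matrix.matrix_eq_sum_single x]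
  refine sum_mem fun i _ => sum_mem fun j _ => ?_
  obtain ⟨a, b, c, d, h⟩ := mem_span_involutions _ _ hX hY hσ hY1 hne i j
  rw [show Matrix.single i j (x i j) = x i j • Matrix.single i j (1 : ZMod (2 ^ 1)) by
    rw [Matrix.smul_single, smul_eq_mul, mul_one], ← h]
  refine Submodule.smul_mem _ _ (add_mem (add_mem (add_mem ?_ ?_) ?_) ?_)
  · exact Submodule.smul_mem _ _ (Submodule.subset_span ⟨1, map_one r⟩)
  · exact Submodule.smul_mem _ _ (Submodule.subset_span ⟨σ, rfl⟩)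
  · exact Submodule.smul_mem _ _ (Submodule.subset_span ⟨_, rfl⟩)
  · exact Submodule.smul_mem _ _ (Submodule.subset_span ⟨σ * (g * σ * g⁻¹), map_mul r _ _⟩)

variable {W : WeierstrassCurve ℤ}

/-- The two-torsion polynomial of a `TwoCurve` has no rational root. -/
theorem no_rational_root (hW : TwoCurve W) (x : ℚ) :
    4 * x ^ 3 + (W.b₂ : ℚ) * x ^ 2 + 2 * (W.b₄ : ℚ) * x + (W.b₆ : ℚ) ≠ 0 := by
  intro h
  have hint : IsIntegral ℤ (4 * x) := by
    refine ⟨Polynomial.X ^ 3 + Polynomial.C W.b₂ * Polynomial.X ^ 2 +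
      Polynomial.C (8 * W.b₄) * Polynomial.X + Polynomial.C (16 * W.b₆), by monicity!, ?_⟩
    simp only [Polynomial.eval₂_add, Polynomial.eval₂_mul, Polynomial.eval₂_pow,
      Polynomial.eval₂_X, Polynomial.eval₂_C]
    simp only [eq_intCast]
    push_cast
    linear_combination 16 * h
  obtain ⟨u, hu⟩ := IsIntegrallyClosed.isIntegral_iff.mp hint
  rw [eq_intCast] at hu
  have hu' : u ^ 3 + W.b₂ * u ^ 2 + 8 * W.b₄ * u + 16 * W.b₆ = 0 := by
    have : ((u : ℚ)) ^ 3 + W.b₂ * (u : ℚ) ^ 2 + 8 * W.b₄ * u + 16 * W.b₆ = 0 := by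
      rw [hu]; linear_combination 16 * h
    exact_mod_cast this
  obtain ⟨a, ha⟩ := hW.two_dvd_a₁
  obtain ⟨β, hβ⟩ : (4 : ℤ) ∣ W.b₂ := ⟨a ^ 2 + W.a₂, by
    rw [WeierstrassCurve.b₂, ha]; ring⟩
  obtain ⟨δ, hδ⟩ : (2 : ℤ) ∣ W.b₄ := ⟨W.a₄ + a * W.a₃, by
    rw [WeierstrassCurve.b₄, ha]; ring⟩
  have hb6 : ¬ (2 : ℤ) ∣ W.b₆ := fun ⟨γ, hγ⟩ => hW.two_not_dvd_Δ ⟨-8 * β ^ 2 * W.b₈ - 32 * δ ^ 3
      - 54 * γ ^ 2 + 72 * β * δ * γ, by
    simp only [WeierstrassCurve.Δ, hβ, hδ, hγ]; ring⟩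
  rw [hβ, hδ] at hu'
  obtain ⟨w, rfl⟩ : (2 : ℤ) ∣ u := Int.prime_two.dvd_of_dvd_pow (n := 3)
    ⟨-(2 * β * u ^ 2 + 8 * δ * u + 8 * W.b₆), by linear_combination hu'⟩
  obtain ⟨z, rfl⟩ : (2 : ℤ) ∣ w := Int.prime_two.dvd_of_dvd_pow (n := 3)
    ⟨-(β * w ^ 2 + 2 * δ * w + W.b₆), by linarith [hu']⟩
  exact hb6 ⟨-(2 * z ^ 3 + 2 * β * z ^ 2 + 2 * δ * z), by linarith [hu']⟩

set_option maxHeartbeats 1000000 in
/-- **The image on the two-torsion spans all matrices.** -/
theorem span_tateMod_one [Fact (Nat.Prime 2)] (hW : TwoCurve W) :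
    Submodule.span (ZMod (2 ^ 1)) (Set.range (tateMod (p := 2) hW.Δ_ne_zero 1)) = ⊤ := by
  classical
  have hΔ := hW.Δ_ne_zero
  set E := (W.map (Int.castRingHom ℚ))⁄(AlgebraicClosure ℚ) with hE
  set P : Cubic ℚ := (W.map (Int.castRingHom ℚ)).twoTorsionPolynomial with hP
  set φ := algebraMap ℚ (AlgebraicClosure ℚ)
  have ha : P.a ≠ 0 := by
    show (4 : ℚ) ≠ 0
    norm_num
  obtain ⟨e₁, e₂, e₃, h3⟩ := (Cubic.splits_iff_roots_eq_three (φ := φ) ha).mp
    (IsAlgClosed.splits _)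
  have hD : P.discr = 16 * (W.Δ : ℚ) := by
    rw [hP, WeierstrassCurve.twoTorsionPolynomial_discr, WeierstrassCurve.map_Δ, eq_intCast]
  have hdisc : P.discr ≠ 0 := by
    rw [hD]; exact mul_ne_zero (by norm_num) (Int.cast_ne_zero.mpr hΔ)
  obtain ⟨h12, h13, h23⟩ := (Cubic.discr_ne_zero_iff_roots_ne ha h3).mp hdisc
  set e : Fin 3 → AlgebraicClosure ℚ := ![e₁, e₂, e₃] with he
  have hroot : ∀ x, 4 * x ^ 3 + (W.b₂ : AlgebraicClosure ℚ) * x ^ 2 +
      2 * (W.b₄ : AlgebraicClosure ℚ) * x + (W.b₆ : AlgebraicClosure ℚ) = 0 ↔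
        ∃ k, e k = x := by
    intro x
    have h0 : (P.map φ).toPoly ≠ 0 := Cubic.ne_zero_of_a_ne_zero
      ((map_ne_zero φ).mpr ha)
    have h1 := Cubic.mem_roots_iff h0 x
    rw [h3] at h1
    simp only [Cubic.map, hP, WeierstrassCurve.twoTorsionPolynomial, WeierstrassCurve.map_b₂,
      WeierstrassCurve.map_b₄, WeierstrassCurve.map_b₆, eq_intCast, map_intCast, map_mul,
      map_ofNat] at h1
    rw [← h1]
    simp only [Multiset.insert_eq_cons, Multiset.mem_cons, Multiset.mem_singleton,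
      Fin.exists_fin_succ, he, IsEmpty.exists_iff, or_false]
    simp [eq_comm]
  -- Galois permutes the roots
  have hperm : ∀ (σ : GQ) k, ∃ k', e k' = σ (e k) := by
    intro σ k
    refine (hroot _).mp ?_
    have := congrArg σ ((hroot (e k)).mpr ⟨k, rfl⟩)
    simpa [map_ofNat] using this
  -- the two-torsion points
  have hb : E.b₂ = (W.b₂ : AlgebraicClosure ℚ) ∧ E.b₄ = (W.b₄ : AlgebraicClosure ℚ) ∧
      E.b₆ = (W.b₆ : AlgebraicClosure ℚ) := by
    refine ⟨?_, ?_, ?_⟩ <;>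
      simp [hE, WeierstrassCurve.baseChange, WeierstrassCurve.map_b₂, WeierstrassCurve.map_b₄,
        WeierstrassCurve.map_b₆]
  have hEΔ : E.Δ ≠ 0 := by
    rw [hE]
    show ((W.map (Int.castRingHom ℚ)).map _).Δ ≠ 0
    rw [WeierstrassCurve.map_Δ, WeierstrassCurve.map_Δ, eq_intCast, map_intCast]
    exact Int.cast_ne_zero.mpr hΔ
  have hpt : ∀ k, E.toAffine.Equation (e k) (-(E.a₁ * e k + E.a₃) / 2) := by
    intro k
    rw [WeierstrassCurve.Affine.equation_iff]
    have h := (hroot (e k)).mpr ⟨k, rfl⟩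
    rw [← hb.1, ← hb.2.1, ← hb.2.2, WeierstrassCurve.b₂, WeierstrassCurve.b₄,
      WeierstrassCurve.b₆] at h
    field_simp
    linear_combination (-1 : AlgebraicClosure ℚ) * h
  set pt : Fin 3 → PtQ W := fun k => WeierstrassCurve.Affine.Point.some _ _
    ((E.toAffine.equation_iff_nonsingular_of_Δ_ne_zero hEΔ).mp (hpt k)) with hpt'
  have h2pt : ∀ k, (2 : ℤ) • pt k = 0 := fun k => by
    rw [two_zsmul, add_eq_zero_iff_eq_neg, hpt', WeierstrassCurve.Affine.Point.neg_some]
    simp only [WeierstrassCurve.Affine.Point.some.injEq, WeierstrassCurve.Affine.negY, true_and]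
    show -(E.a₁ * e k + E.a₃) / 2 = -(-(E.a₁ * e k + E.a₃) / 2) - E.a₁ * e k - E.a₃
    ring
  have hsmul : ∀ (σ : GQ) k k', e k' = σ (e k) → σ • pt k = pt k' := fun σ k k' h => by
    simp only [hpt', WeierstrassCurve.Affine.Point.algEquiv_smul_def,
      WeierstrassCurve.Affine.Point.map_some, WeierstrassCurve.Affine.Point.some.injEq]
    refine ⟨h.symm, ?_⟩
    rw [h]
    simp [hE, map_ofNat]
  -- vectors
  set B := tateBas (p := 2) hΔ
  have hred0 : ∀ v, tateRed hΔ 1 v = 0 ↔ (fun i => PadicInt.toZModPow 1 (B.repr v i)) = 0 := by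
    intro v
    refine ((tateBasis W 2 hΔ).red_eq_zero_iff 1 v).trans ?_
    rw [← PadicInt.ker_toZModPow, funext_iff, Fin.forall_fin_two, RingHom.mem_ker, RingHom.mem_ker]
    rfl
  have hrepr : ∀ (σ : GQ) v, (fun i => PadicInt.toZModPow 1 (B.repr ((tateRep W 2 hΔ).ρ σ v) i)) =
      tateMod (p := 2) hΔ 1 σ *ᵥ fun i => PadicInt.toZModPow 1 (B.repr v i) := by
    intro σ v
    have h1 : tateMat (p := 2) hΔ σ *ᵥ (B.repr v) = B.repr ((tateRep W 2 hΔ).ρ σ v) :=
      LinearMap.toMatrix_mulVec_repr B B _ v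
    funext i
    rw [← h1]
    exact RingHom.map_mulVec _ _ _ i
  -- fixed vectors are fixed points
  have hfixiff : ∀ (σ : GQ) v, (tateMod (p := 2) hΔ 1 σ *ᵥ (fun i => PadicInt.toZModPow 1 (B.repr v i))
      = fun i => PadicInt.toZModPow 1 (B.repr v i)) ↔ σ • tateRed hΔ 1 v = tateRed hΔ 1 v := by
    intro σ v
    rw [← hrepr, ← red_tateRep, ← sub_eq_zero (b := tateRed hΔ 1 v), ← map_sub, hred0,
      ← sub_eq_zero (b := fun i => PadicInt.toZModPow 1 (B.repr v i))]
    constructor <;> intro h <;> rw [← h] <;> funext i <;> simp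
  refine span_eq_top_of_involution _ (fun w hw => ?_) ?_
  · by_contra hall
    simp only [not_exists, not_not] at hall
    obtain ⟨v, rfl⟩ : ∃ v, (fun i => PadicInt.toZModPow 1 (B.repr v i)) = w := by
      choose c hc using fun i => ZMod.ringHom_surjective (PadicInt.toZModPow 1 : ℤ_[2] →+* _) (w i)
      exact ⟨B.equivFun.symm c, funext fun i => by
        rw [← B.equivFun_apply, LinearEquiv.apply_symm_apply]; exact hc i⟩
    have hne : tateRed hΔ 1 v ≠ 0 := fun h0 => hw ((hred0 v).mp h0)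
    have h2 : (2 : ℤ) • tateRed hΔ 1 v = 0 := by
      simpa using pow_smul_tateRed (p := 2) hΔ 1 v
    have hfix := fun σ => (hfixiff σ v).mp (hall σ)
    revert hne h2 hfix
    rcases tateRed hΔ 1 v with _ | ⟨x, y, hns⟩
    · exact fun hne => absurd rfl hne
    intro _ h2 hfix
    rw [two_zsmul, add_eq_zero_iff_eq_neg, WeierstrassCurve.Affine.Point.neg_some] at h2
    simp only [WeierstrassCurve.Affine.Point.some.injEq, WeierstrassCurve.Affine.negY,
      true_and] at h2
    have hx : ∀ σ : GQ, σ x = x := fun σ => by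
      have h := hfix σ
      simp only [WeierstrassCurve.Affine.Point.algEquiv_smul_def,
        WeierstrassCurve.Affine.Point.map_some, WeierstrassCurve.Affine.Point.some.injEq] at h
      exact h.1
    obtain ⟨q, rfl⟩ : ∃ q : ℚ, φ q = x :=
      (InfiniteGalois.mem_range_algebraMap_iff_fixed x).mpr hx
    refine no_rational_root hW q (φ.injective ?_)
    have heq := hns.1
    rw [WeierstrassCurve.Affine.equation_iff] at heq
    rw [map_zero]
    simp only [map_add, map_mul, map_pow, map_ofNat, map_intCast]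
    rw [← hb.1, ← hb.2.1, ← hb.2.2, WeierstrassCurve.b₂, WeierstrassCurve.b₄,
      WeierstrassCurve.b₆]
    have h2y : 2 * y + E.a₁ * φ q + E.a₃ = 0 := by linear_combination h2
    linear_combination (2 * y + E.a₁ * φ q + E.a₃) * h2y - 4 * heq
  · -- some element fixes exactly one root
    obtain ⟨σ, k, l, hk, hl⟩ : ∃ σ : GQ, ∃ k l, σ (e k) = e k ∧ σ (e l) ≠ e l := by
      by_contra hall
      simp only [not_exists, not_and, not_not] at hall
      set d := (e 0 - e 1) * (e 0 - e 2) * (e 1 - e 2) with hd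
      have hdfix : ∀ σ : GQ, σ d = d := by
        intro σ
        by_cases hk : ∃ k, σ (e k) = e k
        · obtain ⟨k, hk⟩ := hk
          simp only [hd, map_mul, map_sub, hall σ k 0 hk, hall σ k 1 hk, hall σ k 2 hk]
        simp only [not_exists] at hk
        have hinj : ∀ i j : Fin 3, e i = e j → i = j := by
          intro i j h
          fin_cases i <;> fin_cases j <;>
            first
            | rfl
            | exact absurd h (by simp [he, h12, h13, h23, h12.symm, h13.symm, h23.symm])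
        obtain ⟨k₀, hk₀⟩ := hperm σ 0
        obtain ⟨k₁, hk₁⟩ := hperm σ 1
        obtain ⟨k₂, hk₂⟩ := hperm σ 2
        have n0 : k₀ ≠ 0 := fun h => hk 0 (by rw [← hk₀, h])
        have n1 : k₁ ≠ 1 := fun h => hk 1 (by rw [← hk₁, h])
        have n2 : k₂ ≠ 2 := fun h => hk 2 (by rw [← hk₂, h])
        have d01 : k₀ ≠ k₁ := fun h => absurd (hinj 0 1 (σ.injective (by rw [← hk₀, ← hk₁, h]))) (by decide)
        have d02 : k₀ ≠ k₂ := fun h => absurd (hinj 0 2 (σ.injective (by rw [← hk₀, ← hk₂, h]))) (by decide)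
        have d12 : k₁ ≠ k₂ := fun h => absurd (hinj 1 2 (σ.injective (by rw [← hk₁, ← hk₂, h]))) (by decide)
        have := derangement_three k₀ k₁ k₂ n0 n1 n2 d01 d02 d12
        rcases this with ⟨rfl, rfl, rfl⟩ | ⟨rfl, rfl, rfl⟩ <;>
          simp only [hd, map_mul, map_sub, ← hk₀, ← hk₁, ← hk₂] <;> ring
      obtain ⟨q, hq⟩ : ∃ q : ℚ, φ q = d := (InfiniteGalois.mem_range_algebraMap_iff_fixed d).mpr hdfix
      have h16 : P.discr = (P.a * P.a * q) ^ 2 := φ.injective (by
        rw [Cubic.discr_eq_prod_three_roots ha h3, map_pow, map_mul, map_mul, hq, hd]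
        simp [he]
        ring)
      have hneg : P.discr < 0 := by
        rw [hD]; exact mul_neg_of_pos_of_neg (by norm_num) (Int.cast_lt_zero.mpr hW.Δ_neg)
      nlinarith [sq_nonneg (P.a * P.a * q)]
    obtain ⟨v, hv⟩ := exists_tateRed_eq (p := 2) hΔ 1 (x := pt k) (by rw [pow_one]; exact h2pt k)
    obtain ⟨w, hw⟩ := exists_tateRed_eq (p := 2) hΔ 1 (x := pt l) (by rw [pow_one]; exact h2pt l)
    obtain ⟨l', hl'⟩ := hperm σ l
    refine ⟨σ, fun i => PadicInt.toZModPow 1 (B.repr v i), fun h0 => ?_, ?_, fun h1 => ?_⟩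
    · have := (hred0 v).mpr h0
      rw [hv] at this
      exact WeierstrassCurve.Affine.Point.some_ne_zero _ this
    · rw [hfixiff, hv]
      exact hsmul σ k k hk.symm
    · have h := (hfixiff σ w).mp (by rw [h1, Matrix.one_mulVec])
      rw [hw, hsmul σ l l' hl'] at h
      simp only [hpt', WeierstrassCurve.Affine.Point.some.injEq] at h
      exact hl (hl'.symm.trans h.1)

end Fermat.Agent.Two.Lower

end
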