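import Fermat.Agent.RT.MazurP.EigenSpace
import Fermat.Agent.HeckeDuality.Eigenform
import Mathlib.Algebra.Module.CharacterModule

/-!
# Eigen torsion classes of prime power order

An eigenform whose eigenvalues are congruent to `a` modulo `p ^ n` at a place over `p` gives an
eigen class of exact order `p ^ n` in `J₀(N)`. Conversely, eigen classes of unbounded order give an
eigenform with exactly the eigenvalues `a`.
-/

set_option autoImplicit false
set_option synthInstance.maxHeartbeats 400000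
set_option linter.unusedSectionVars false

noncomputable section

namespace Fermat.Agent.Two.Lower

open ModularCurve AlgebraicCurve Fermat.Agent.GaloisReps
open Fermat.Agent.RT.MazurP (IsEigen)
open scoped Matrix

/-- An eigen class of exact order `n`. -/
def HasClass (N : ℕ) [NeZero N] (G : ℕ → Prop) (a : ℕ → ℤ) (n : ℕ) : Prop :=
  ∃ y : JZero N, addOrderOf y = n ∧ IsEigen N G a y

/-- A normalised eigenform of level `N` congruent to `a` modulo `p ^ n` at a place over `p`. -/
def Congr (p N : ℕ) [NeZero N] (n : ℕ) (G : ℕ → Prop) (a : ℕ → ℤ) : Prop :=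
  ∃ f : CuspForm (CongruenceSubgroup.Gamma0 N) 2, f.IsNormalizedEigenform ∧
    ∃ A : ValuationSubring ℂ, (p : ℂ) ∈ A.nonunits ∧ ∀ l : ℕ, l.Prime → G l →
      ∃ c ∈ A, ModularFormClass.qCoeff f l - (a l : ℂ) = (p : ℂ) ^ n * c

variable {N : ℕ} [NeZero N] {G G' : ℕ → Prop} {a : ℕ → ℤ}

theorem isEigen_nsmul {y : JZero N} (he : IsEigen N G a y) (k : ℕ) : IsEigen N G a (k • y) :=
  fun l hl hG => by rw [map_nsmul, he l hl hG, smul_comm]

/-- A class not killed by `p ^ j` has a multiple of exact order `p ^ (j + 1)`. -/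
theorem hasClass_succ {p : ℕ} [Fact p.Prime] {y : JZero N} {m j : ℕ} (hm : p ^ m • y = 0)
    (hj : p ^ j • y ≠ 0) (he : IsEigen N G a y) : HasClass N G a (p ^ (j + 1)) := by
  obtain ⟨i, -, hi⟩ := (Nat.dvd_prime_pow Fact.out).mp (addOrderOf_dvd_of_nsmul_eq_zero hm)
  have hji : j < i := by
    by_contra hle
    refine hj (addOrderOf_dvd_iff_nsmul_eq_zero.mp ?_)
    rw [hi]
    exact pow_dvd_pow p (not_lt.mp hle)
  refine ⟨p ^ (i - (j + 1)) • y, addOrderOf_eq_prime_pow ?_ ?_, isEigen_nsmul he _⟩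
  · rw [← mul_smul, ← pow_add]
    intro h0
    have := addOrderOf_dvd_of_nsmul_eq_zero h0
    rw [hi, Nat.pow_dvd_pow_iff_le_right (Fact.out : p.Prime).one_lt] at this
    omega
  · rw [← mul_smul, ← pow_add, ← addOrderOf_dvd_iff_nsmul_eq_zero, hi]
    exact pow_dvd_pow p (by omega)

variable {p : ℕ} [Fact p.Prime]

/-- The matrix of a Hecke operator on the coordinates of a torsion class. -/
theorem mulVec_heckeOp (n : ℕ) {l : ℕ} (hl : l.Prime) (x : JTors N p n) :
    haveI : NeZero (p ^ n) := ⟨pow_ne_zero n (Fact.out : p.Prime).ne_zero⟩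
    matIn (latticeMat N) (ZMod (p ^ n)) (HeckeDuality.heckeOp N 2 l hl) *ᵥ
        (torsionIso N p (conjProperty N)).psi n x =
      (torsionIso N p (conjProperty N)).psi n (heckeTors n ⟨l, hl⟩ x) := by
  have : NeZero (p ^ n) := ⟨pow_ne_zero n (Fact.out : p.Prime).ne_zero⟩
  rw [matIn_apply, latticeMat_heckeOp, ← (torsionIso N p (conjProperty N)).mat_heckeTors,
    TorsionIso.mat_mulVec]

theorem intCast_mulVec {R ι : Type*} [CommRing R] [Fintype ι] [DecidableEq ι] (z : ℤ)
    (w : ι → R) : (z : Matrix ι ι R) *ᵥ w = z • w := by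
  ext i
  simp [Matrix.intCast_apply, Matrix.mulVec, dotProduct]

/-- Coordinates satisfying the eigen equations give an eigen class. -/
theorem hasClass_of_vec (n : ℕ) (w : Fin (2 * Gamma0.genus N) → ZMod (p ^ n))
    (hw : n ≠ 0 → p ^ (n - 1) • w ≠ 0)
    (heq : ∀ l (hl : l.Prime), G l →
      matIn (latticeMat N) (ZMod (p ^ n)) (HeckeDuality.heckeOp N 2 l hl) *ᵥ w = a l • w) :
    HasClass N G a (p ^ n) := by
  have : NeZero (p ^ n) := ⟨pow_ne_zero n (Fact.out : p.Prime).ne_zero⟩
  set E := torsionIso N p (conjProperty N)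
  set x := (E.psi n).symm w with hx
  have hx0 : p ^ n • (x : JZero N) = 0 := by
    rw [← natCast_zsmul]
    exact Pic0.mem_torsion.mp x.2
  refine ⟨(x : JZero N), ?_, fun l hl hG => ?_⟩
  · cases n with
    | zero => rw [pow_zero, AddMonoid.addOrderOf_eq_one_iff]; rwa [pow_zero, one_smul] at hx0
    | succ k =>
      refine addOrderOf_eq_prime_pow (fun h0 => hw k.succ_ne_zero ?_) hx0
      rw [← (E.psi (k + 1)).apply_symm_apply w, ← hx, Nat.add_sub_cancel, ← map_nsmul,
        show p ^ k • x = 0 from Subtype.ext ((AddSubgroupClass.coe_nsmul x _).trans h0), map_zero]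
  · have h := mulVec_heckeOp n hl x
    rw [hx, (E.psi n).apply_symm_apply, heq l hl hG] at h
    exact congrArg Subtype.val ((E.psi n).injective (h.symm.trans
      ((congrArg (a l • ·) ((E.psi n).apply_symm_apply w)).symm.trans
        (map_zsmul (E.psi n) (a l) ((E.psi n).symm w)).symm)))

set_option maxHeartbeats 800000 in
/-- **A congruence gives an eigen class of exact order `p ^ n`.** -/
theorem hasClass_of_congr {n : ℕ} (h : Congr p N n G a) : HasClass N G a (p ^ n) := by
  classical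
  obtain ⟨f, hf, A, hp, hc⟩ := h
  obtain ⟨θ, hθ⟩ := exists_eigenform_character hf
  set θC : FullHecke N →+* ℂ := (algebraMap (integralClosure ℤ ℂ) ℂ).comp θ
  obtain ⟨v, hv, hv0⟩ : ∃ v ∈ eigenspace (latticeMat N) θC, v ≠ 0 := by
    refine Submodule.exists_mem_ne_zero_of_ne_bot fun e => ?_
    have := finrank_eigenspace_latticeMat θC
    rw [e, finrank_bot] at this
    omega
  obtain ⟨j₀, hj₀⟩ := Function.ne_iff.mp hv0
  obtain ⟨i₀, -, hmax⟩ := Finset.exists_max_image Finset.univ (fun i => A.valuation (v i))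
    ⟨j₀, Finset.mem_univ _⟩
  have hi0 : v i₀ ≠ 0 := fun e => hj₀ (by
    have h1 := hmax j₀ (Finset.mem_univ _)
    rw [e, map_zero] at h1
    simpa using le_antisymm h1 zero_le)
  have hw : ∀ i, v i / v i₀ ∈ A := fun i => by
    rw [← A.valuation_le_one_iff, map_div₀]
    exact (div_le_one₀ (zero_lt_iff.mpr ((Valuation.ne_zero_iff _).mpr hi0))).mpr
      (hmax i (Finset.mem_univ _))
  set u : Fin (2 * Gamma0.genus N) → A := fun i => ⟨_, hw i⟩ with hu
  have hu0 : u i₀ = 1 := Subtype.ext (div_self hi0)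
  set J : Ideal A := Ideal.span {(p : A) ^ n}
  -- the equations modulo `p ^ n`
  have heq : ∀ l (hl : l.Prime), G l → ∀ i,
      ∑ j, (latticeMat N (HeckeDuality.heckeOp N 2 l hl) i j) • u j - a l • u i ∈ J := by
    intro l hl hG i
    obtain ⟨c, hcA, hcc⟩ := hc l hl hG
    refine Ideal.mem_span_singleton.mpr ⟨⟨c, hcA⟩ * u i, Subtype.ext ?_⟩
    have hev := congrFun ((mem_eigenspace _ _ v).mp hv (HeckeDuality.heckeOp N 2 l hl)) i
    have hth : θC (HeckeDuality.heckeOp N 2 l hl) = ModularFormClass.qCoeff f l := hθ l hl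
    rw [hth, matIn_apply] at hev
    simp only [Matrix.mulVec, dotProduct, Matrix.map_apply, Pi.smul_apply, eq_intCast,
      smul_eq_mul] at hev
    simp only [zsmul_eq_mul, AddSubgroupClass.coe_sub, MulMemClass.coe_mul,
      AddSubmonoidClass.coe_finsetSum, SubringClass.coe_intCast, SubmonoidClass.coe_pow,
      SubringClass.coe_natCast, hu]
    rw [Finset.sum_congr rfl fun j _ => (mul_div_assoc _ _ _).symm, ← Finset.sum_div, hev]
    linear_combination (v i / v i₀) * hcc
  -- a character sees the order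
  set q : A →+* A ⧸ J := Ideal.Quotient.mk J
  have hn1 : n ≠ 0 → q ((p : A) ^ (n - 1)) ≠ 0 := fun hn e => by
    obtain ⟨d, hd⟩ := Ideal.mem_span_singleton.mp ((Ideal.Quotient.eq_zero_iff_mem).mp e)
    have hd' := congrArg Subtype.val hd
    simp only [MulMemClass.coe_mul, SubmonoidClass.coe_pow, SubringClass.coe_natCast] at hd'
    obtain ⟨k, rfl⟩ := Nat.exists_eq_succ_of_ne_zero hn
    rw [Nat.succ_sub_one, pow_succ, mul_assoc] at hd'
    have h1 : (p : ℂ) * d = 1 := (mul_left_cancel₀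
      (pow_ne_zero _ (Nat.cast_ne_zero.mpr (Fact.out : p.Prime).ne_zero))
      ((mul_one _).trans hd')).symm
    have hlt : A.valuation (p : ℂ) < 1 := (A.mem_nonunits_iff).mp hp
    have := congrArg A.valuation h1
    rw [map_mul, map_one] at this
    exact absurd this (ne_of_lt ((mul_le_of_le_one_right' ((A.valuation_le_one_iff _).mpr d.2)).trans_lt hlt))
  obtain ⟨χ, hχ⟩ : ∃ χ : (A ⧸ J) →+ AddCircle (1 : ℚ), n ≠ 0 → χ (q ((p : A) ^ (n - 1))) ≠ 0 := by
    by_cases hn : n = 0
    · exact ⟨0, fun h => absurd hn h⟩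
    · obtain ⟨c, hc⟩ := CharacterModule.exists_character_apply_ne_zero_of_ne_zero (hn1 hn)
      exact ⟨c, fun _ => hc⟩
  let g : {g : ℤ →+ AddCircle (1 : ℚ) // g (p ^ n : ℕ) = 0} :=
    ⟨zmultiplesHom _ (((1 : ℚ) / (p ^ n : ℕ) : ℚ) : AddCircle (1 : ℚ)), by
      rw [zmultiplesHom_apply, ← AddCircle.coe_zsmul, zsmul_eq_mul, Int.cast_natCast,
        mul_one_div_cancel (Nat.cast_ne_zero.mpr (pow_ne_zero n (Fact.out : p.Prime).ne_zero))]
      exact AddCircle.coe_period _⟩
  set ψ : ZMod (p ^ n) →+ AddCircle (1 : ℚ) := ZMod.lift (p ^ n) g with hψ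
  have hψinj : Function.Injective ψ := by
    refine (ZMod.lift_injective _).mpr fun z hz => ?_
    rw [zmultiplesHom_apply, ← AddCircle.coe_zsmul, AddCircle.coe_eq_zero_iff] at hz
    obtain ⟨k, hk⟩ := hz
    rw [zsmul_eq_mul, zsmul_eq_mul, mul_one, mul_one_div, eq_div_iff
      (Nat.cast_ne_zero.mpr (pow_ne_zero n (Fact.out : p.Prime).ne_zero))] at hk
    refine (ZMod.intCast_zmod_eq_zero_iff_dvd _ _).mpr ⟨k, ?_⟩
    rw [mul_comm]
    exact_mod_cast hk.symm
  have hrange : ∀ z : A ⧸ J, ∃ k : ZMod (p ^ n), ψ k = χ z := by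
    intro z
    have h0 : (p ^ n : ℕ) • z = 0 := by
      obtain ⟨z, rfl⟩ := Ideal.Quotient.mk_surjective z
      rw [nsmul_eq_mul, ← map_natCast q, ← map_mul, Ideal.Quotient.eq_zero_iff_mem]
      exact Ideal.mem_span_singleton.mpr ⟨z, by push_cast; rfl⟩
    obtain ⟨r, hr⟩ := QuotientAddGroup.mk_surjective (χ z)
    have h1 : (p ^ n : ℕ) • (r : AddCircle (1 : ℚ)) = 0 := by rw [hr, ← map_nsmul, h0, map_zero]
    rw [← AddCircle.coe_nsmul, AddCircle.coe_eq_zero_iff] at h1
    obtain ⟨k, hk⟩ := h1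
    refine ⟨(k : ZMod (p ^ n)), ?_⟩
    rw [← hr, hψ, ZMod.lift_coe, zmultiplesHom_apply, ← AddCircle.coe_zsmul]
    refine congrArg _ ?_
    rw [zsmul_eq_mul, mul_one_div, div_eq_iff
      (Nat.cast_ne_zero.mpr (pow_ne_zero n (Fact.out : p.Prime).ne_zero))]
    rw [zsmul_eq_mul, mul_one, nsmul_eq_mul] at hk
    rw [hk, mul_comm]
  choose k hk using fun i => hrange (q (u i))
  refine hasClass_of_vec n k (fun hn e => hχ hn ?_) fun l hl hG => funext fun i => hψinj ?_
  · have e' := congrArg ψ (congrFun e i₀)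
    rw [Pi.zero_apply, map_zero, Pi.smul_apply, map_nsmul, hk, ← map_nsmul, hu0, map_one] at e'
    rwa [nsmul_eq_mul, mul_one, Nat.cast_pow, ← map_natCast q, ← map_pow] at e'
  · have h0 := congrArg χ ((Ideal.Quotient.eq_zero_iff_mem).mpr (heq l hl hG i))
    simp only [map_sub, map_sum, map_zsmul, map_zero, sub_eq_zero] at h0
    rw [Pi.smul_apply, map_zsmul, hk, matIn_apply]
    simp only [Matrix.mulVec, dotProduct, Matrix.map_apply, eq_intCast, ← zsmul_eq_mul, map_sum,
      map_zsmul, hk]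
    exact h0

end Fermat.Agent.Two.Lower

end
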