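import Mathlib.LinearAlgebra.Matrix.Trace
import Mathlib.RingTheory.LocalRing.MaximalIdeal.Basic
import Mathlib.LinearAlgebra.Finsupp.LinearCombination
import Mathlib.LinearAlgebra.Matrix.Determinant.Basic
import Mathlib.RingTheory.Finiteness.Basic
import Mathlib.LinearAlgebra.Matrix.Basis
import Mathlib.LinearAlgebra.FreeModule.Basic
import Mathlib.LinearAlgebra.Matrix.ToLin
import Mathlib.Tactic.NoncommRing
import Mathlib.Algebra.Module.Projective
import Mathlib.Tactic.LinearCombination
import Mathlib.Tactic.Module
import Mathlib.Tactic.Group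
import Mathlib.Tactic.FinCases

/-!
# A representation over a local ring inside a module with its quadratic relations

If the matrices of a two dimensional representation over a local ring `R` span all matrices, a
module on which every group element satisfies the characteristic polynomial and which has a vector
not killed by `c` contains the representation, when `c` is a multiple of every nonzero element.
-/

set_option autoImplicit false

noncomputable section

namespace Fermat.Agent.Two.Lower

open Matrix

variable {R : Type*} [CommRing R] {G : Type*} [Group G] {V : Type*} [AddCommGroup V] [Module R V]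
  {ψ : G →* Module.End R V} {r : G →* Matrix (Fin 2) (Fin 2) R}

/-- The anticommutator of two elements satisfying the characteristic polynomials. -/
theorem anticomm_of_quad
    (hquad : ∀ g, ψ g * ψ g - (r g).trace • ψ g + (r g).det • 1 = 0) (g h : G) :
    ψ g * ψ h + ψ h * ψ g = (r g).trace • ψ h + (r h).trace • ψ g +
      ((r (g * h)).trace - (r g).trace * (r h).trace) • 1 := by
  have inv_eq : ∀ a : G, (r a).det • ψ a⁻¹ = (r a).trace • 1 - ψ a := fun a => by
    have e := congrArg (· * ψ a⁻¹) (hquad a)
    simp only [zero_mul, add_mul, sub_mul, smul_mul_assoc, one_mul, mul_assoc, ← map_mul,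
      mul_inv_cancel, map_one, mul_one] at e
    linear_combination (norm := module) e
  have e := inv_eq (g * h)
  rw [_root_.mul_inv_rev, map_mul ψ h⁻¹, map_mul r, det_mul, mul_comm (r g).det,
    ← smul_mul_smul_comm, inv_eq, inv_eq, map_mul ψ g] at e
  simp only [sub_mul, mul_sub, smul_mul_assoc, mul_smul_comm, one_mul, mul_one] at e
  rw [← map_mul r] at e
  linear_combination (norm := module) e

variable [IsLocalRing R]

/-- Some element changes a trace by a unit on multiplication by a commutator. -/
theorem exists_isUnit_trace_commutator (hspan : Submodule.span R (Set.range r) = ⊤) :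
    ∃ g h k : G, IsUnit ((r (k * ((h⁻¹ * g⁻¹)⁻¹ * (g⁻¹ * h⁻¹)))).trace - (r k).trace) := by
  by_contra hall
  simp only [not_exists] at hall
  set 𝔪 := IsLocalRing.maximalIdeal R
  have hmem : ∀ g h : G, ∀ i j, (r ((h⁻¹ * g⁻¹)⁻¹ * (g⁻¹ * h⁻¹)) - 1) i j ∈ 𝔪 := by
    intro g h i j
    set s := (h⁻¹ * g⁻¹)⁻¹ * (g⁻¹ * h⁻¹)
    have key : ∀ m : Matrix (Fin 2) (Fin 2) R, (m * (r s - 1)).trace ∈ 𝔪 := fun m => by
      have hm : m ∈ Submodule.span R (Set.range r) := hspan ▸ Submodule.mem_top
      induction hm using Submodule.span_induction with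
      | mem _ hx =>
        obtain ⟨k, rfl⟩ := hx
        rw [mul_sub, mul_one, ← map_mul, trace_sub]
        exact (IsLocalRing.mem_maximalIdeal _).mpr (hall g h k)
      | zero => simp
      | add _ _ _ _ ha hb => rw [add_mul, trace_add]; exact add_mem ha hb
      | smul c _ _ ha => rw [smul_mul_assoc, trace_smul, smul_eq_mul]; exact Ideal.mul_mem_left _ c ha
    have h1 := key (Matrix.single j i 1)
    fin_cases i <;> fin_cases j <;>
      simpa [Matrix.trace_fin_two, Matrix.mul_apply, Fin.sum_univ_two, Matrix.single] using h1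
  -- so all matrices commute modulo the maximal ideal
  have hc : ∀ g h : G, ∀ i j, (r g * r h - r h * r g) i j ∈ 𝔪 := fun g h i j => by
    have e2 : r (h * g) * (r ((h⁻¹⁻¹ * g⁻¹⁻¹)⁻¹ * (g⁻¹⁻¹ * h⁻¹⁻¹)) - 1) = r g * r h - r h * r g := by
      rw [mul_sub, mul_one, ← map_mul, map_mul r h g, ← map_mul r g h]
      congr 2
      group
    rw [← e2, Matrix.mul_apply]
    exact sum_mem fun k _ => Ideal.mul_mem_left _ _ (hmem g⁻¹ h⁻¹ k j)
  have hall' : ∀ m m' : Matrix (Fin 2) (Fin 2) R, ∀ i j, (m * m' - m' * m) i j ∈ 𝔪 := by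
    intro m m'
    have hm : m ∈ Submodule.span R (Set.range r) := hspan ▸ Submodule.mem_top
    induction hm using Submodule.span_induction with
    | mem _ hx =>
      obtain ⟨g, rfl⟩ := hx
      have hm' : m' ∈ Submodule.span R (Set.range r) := hspan ▸ Submodule.mem_top
      induction hm' using Submodule.span_induction with
      | mem _ hy => obtain ⟨h, rfl⟩ := hy; exact hc g h
      | zero => simp
      | add x y _ _ ha hb =>
        intro i j
        rw [show r g * (x + y) - (x + y) * r g =
          (r g * x - x * r g) + (r g * y - y * r g) by noncomm_ring, Matrix.add_apply]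
        exact add_mem (ha i j) (hb i j)
      | smul c x _ ha =>
        intro i j
        rw [mul_smul_comm, smul_mul_assoc, ← smul_sub, Matrix.smul_apply, smul_eq_mul]
        exact Ideal.mul_mem_left _ c (ha i j)
    | zero => simp
    | add x y _ _ ha hb =>
      intro i j
      rw [show (x + y) * m' - m' * (x + y) =
        (x * m' - m' * x) + (y * m' - m' * y) by noncomm_ring, Matrix.add_apply]
      exact add_mem (ha i j) (hb i j)
    | smul c x _ ha =>
      intro i j
      rw [mul_smul_comm, smul_mul_assoc, ← smul_sub, Matrix.smul_apply, smul_eq_mul]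
      exact Ideal.mul_mem_left _ c (ha i j)
  have e := hall' !![0, 1; 0, 0] !![0, 0; 1, 0] 0 0
  simp [Matrix.sub_apply] at e
  exact (IsLocalRing.mem_maximalIdeal _).mp e isUnit_one

/-- A linear relation between the matrices holds between the operators. -/
theorem linearCombination_eq_zero
    (hquad : ∀ g, ψ g * ψ g - (r g).trace • ψ g + (r g).det • 1 = 0)
    (hspan : Submodule.span R (Set.range r) = ⊤) (c : G →₀ R)
    (hc : Finsupp.linearCombination R r c = 0) :
    Finsupp.linearCombination R ψ c = 0 := by
  classical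
  set x : Module.End R V := Finsupp.linearCombination R ψ c with hx
  rw [Finsupp.linearCombination_apply, Finsupp.sum] at hx hc
  have hT : ∑ g ∈ c.support, c g * (r g).trace = 0 := by
    have e := congrArg Matrix.trace hc
    simp only [trace_sum, trace_smul, trace_zero, smul_eq_mul] at e
    exact e
  have hTh : ∀ h, ∑ g ∈ c.support, c g * (r (g * h)).trace = 0 := fun h => by
    have e := congrArg (fun m => (m * r h).trace) hc
    simp only [Finset.sum_mul, trace_sum, smul_mul_assoc, ← map_mul, trace_smul, zero_mul,
      trace_zero, smul_eq_mul] at e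
    exact e
  have hxh : ∀ h, x * ψ h + ψ h * x = (r h).trace • x := fun h => by
    have e : ∀ g, c g • (ψ g * ψ h) + c g • (ψ h * ψ g) = (c g * (r g).trace) • ψ h +
        (r h).trace • (c g • ψ g) + (c g * (r (g * h)).trace -
          c g * (r g).trace * (r h).trace) • (1 : Module.End R V) := fun g => by
      linear_combination (norm := module) c g • anticomm_of_quad hquad g h
    rw [hx, Finset.sum_mul, Finset.mul_sum, ← Finset.sum_add_distrib]
    simp only [smul_mul_assoc, mul_smul_comm, e]
    rw [Finset.sum_add_distrib, Finset.sum_add_distrib, ← Finset.sum_smul, ← Finset.sum_smul,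
      ← Finset.smul_sum, Finset.sum_sub_distrib, ← Finset.sum_mul, hT, hTh]
    simp
  have inv_eq : ∀ a : G, ((r a).trace • 1 - ψ a) = (r a).det • ψ a⁻¹ := fun a => by
    have e := congrArg (· * ψ a⁻¹) (hquad a)
    simp only [zero_mul, add_mul, sub_mul, smul_mul_assoc, one_mul, mul_assoc, ← map_mul,
      mul_inv_cancel, map_one, mul_one] at e
    linear_combination (norm := module) -e
  have hswap : ∀ h, x * ψ h = (r h).det • (ψ h⁻¹ * x) := fun h => by
    rw [← smul_mul_assoc, ← inv_eq, sub_mul, smul_mul_assoc, one_mul, ← hxh]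
    abel
  have hd : ∀ a, IsUnit (r a).det := fun a =>
    IsUnit.of_mul_eq_one (r a⁻¹).det (by rw [← det_mul, ← map_mul, mul_inv_cancel, map_one, det_one])
  have hcomm : ∀ g h, ψ (g⁻¹ * h⁻¹) * x = ψ (h⁻¹ * g⁻¹) * x := fun g h => by
    have h1 := hswap (g * h)
    rw [map_mul ψ g h, ← mul_assoc, hswap g, smul_mul_assoc, mul_assoc, hswap h, mul_smul_comm,
      smul_smul, ← mul_assoc, ← map_mul, map_mul r, det_mul, _root_.mul_inv_rev] at h1
    exact ((hd g).mul (hd h)).smul_left_cancel.mp h1
  obtain ⟨g, h, k, hu⟩ := exists_isUnit_trace_commutator hspan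
  set s := (h⁻¹ * g⁻¹)⁻¹ * (g⁻¹ * h⁻¹) with hs
  have hfix : ψ s * x = x := by
    rw [hs, map_mul, mul_assoc, hcomm, ← mul_assoc, ← map_mul, inv_mul_cancel, map_one, one_mul]
  have hks : ψ (k * s) * x = ψ k * x := by rw [map_mul, mul_assoc, hfix]
  have hdet : (r (k * s)).det = (r k).det := by
    rw [hs]
    simp only [map_mul, det_mul, _root_.mul_inv_rev, inv_inv]
    have e : ∀ a : G, (r a).det * (r a⁻¹).det = 1 := fun a => by
      rw [← det_mul, ← map_mul, mul_inv_cancel, map_one, det_one]
    linear_combination (r k).det * (r g).det * (r g⁻¹).det * e h + (r k).det * e g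
  -- the relations of `k s` and `k` differ by a unit multiple of `ψ k x`
  have h1 : ∀ v, ψ (k * s) (x v) = ψ k (x v) := fun v => LinearMap.congr_fun hks v
  have hsub : ∀ v, ∃ w, ψ k (x v) = x w := fun v => by
    refine ⟨(r k).trace • v - ψ k v, ?_⟩
    have e := LinearMap.congr_fun (hxh k) v
    simp only [LinearMap.add_apply, Module.End.mul_apply, LinearMap.smul_apply] at e
    rw [map_sub, map_smul, ← e]
    abel
  refine LinearMap.ext fun v => ?_
  obtain ⟨w, hw⟩ := hsub v
  have q1 := LinearMap.congr_fun (hquad (k * s)) (x v)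
  have q2 := LinearMap.congr_fun (hquad k) (x v)
  simp only [LinearMap.add_apply, LinearMap.sub_apply, Module.End.mul_apply,
    LinearMap.smul_apply, Module.End.one_apply, LinearMap.zero_apply] at q1 q2
  rw [h1, hdet, hw, h1 w, ← hw] at q1
  have e : ((r (k * s)).trace - (r k).trace) • ψ k (x v) = 0 := by
    linear_combination (norm := module) q2 - q1
  have e2 : ψ k (x v) = 0 := hu.smul_eq_zero.mp e
  have e3 := congrArg (ψ k⁻¹) e2
  rwa [map_zero, ← Module.End.mul_apply, ← map_mul, inv_mul_cancel, map_one,
    Module.End.one_apply] at e3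

/-- A module satisfying the characteristic polynomials of a spanning representation contains it. -/
theorem exists_embedding
    (hquad : ∀ g, ψ g * ψ g - (r g).trace • ψ g + (r g).det • 1 = 0)
    (hspan : Submodule.span R (Set.range r) = ⊤) (c : R)
    (hc : ∀ a : R, a ≠ 0 → ∃ b, c = b * a) (u₀ : V) (hu₀ : c • u₀ ≠ 0) :
    ∃ ι : (Fin 2 → R) →ₗ[R] V, Function.Injective ι ∧ ∀ g v, ι (r g *ᵥ v) = ψ g (ι v) := by
  classical
  set L := Finsupp.linearCombination R (r : G → Matrix (Fin 2) (Fin 2) R)
  have hL : LinearMap.range L = ⊤ := by rw [Finsupp.range_linearCombination, hspan]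
  obtain ⟨s, hs⟩ := Module.projective_lifting_property L LinearMap.id
    (LinearMap.range_eq_top.mp hL)
  let Φ : Matrix (Fin 2) (Fin 2) R →ₗ[R] Module.End R V :=
    (Finsupp.linearCombination R (ψ : G → Module.End R V)).comp s
  have hΦr : ∀ g, Φ (r g) = ψ g := fun g => by
    have h0 : L (s (r g) - Finsupp.single g 1) = 0 := by
      rw [map_sub, ← LinearMap.comp_apply, hs, LinearMap.id_apply,
        Finsupp.linearCombination_single, one_smul, sub_self]
    have e := linearCombination_eq_zero hquad hspan _ h0
    rw [map_sub, sub_eq_zero, Finsupp.linearCombination_single, one_smul] at e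
    exact e
  have hΦmul : ∀ m m', Φ (m * m') = Φ m * Φ m' := by
    have h1 : ∀ g m', Φ (r g * m') = ψ g * Φ m' := fun g m' => by
      have hm : m' ∈ Submodule.span R (Set.range r) := hspan ▸ Submodule.mem_top
      induction hm using Submodule.span_induction with
      | mem _ hx => obtain ⟨h, rfl⟩ := hx; rw [← map_mul, hΦr, hΦr, map_mul]
      | zero => simp
      | add _ _ _ _ ha hb => rw [mul_add, map_add, map_add, mul_add, ha, hb]
      | smul c _ _ ha => rw [mul_smul_comm, map_smul, map_smul, mul_smul_comm, ha]
    intro m m'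
    have hm : m ∈ Submodule.span R (Set.range r) := hspan ▸ Submodule.mem_top
    induction hm using Submodule.span_induction with
    | mem _ hx => obtain ⟨h, rfl⟩ := hx; rw [h1, hΦr]
    | zero => simp
    | add _ _ _ _ ha hb => rw [add_mul, map_add, map_add, add_mul, ha, hb]
    | smul c _ _ ha => rw [smul_mul_assoc, map_smul, map_smul, smul_mul_assoc, ha]
  let col : (Fin 2 → R) →ₗ[R] Matrix (Fin 2) (Fin 2) R :=
    { toFun := fun v => vecMulVec v ![1, 0]
      map_add' := fun v w => add_vecMulVec v w _
      map_smul' := fun c v => smul_vecMulVec c v _ }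
  have hcol : ∀ (m : Matrix (Fin 2) (Fin 2) R) v, m * col v = col (m *ᵥ v) := fun m v =>
    mul_vecMulVec m v _
  obtain ⟨u, hu⟩ : ∃ u, c • Φ (col ![1, 0]) u ≠ 0 := by
    by_contra hall
    simp only [not_exists, not_not] at hall
    refine hu₀ ?_
    have e1 : (1 : Matrix (Fin 2) (Fin 2) R) =
        col ![1, 0] + !![0, 0; 1, 0] * col ![1, 0] * !![0, 1; 0, 0] := by
      ext i j
      fin_cases i <;> fin_cases j <;>
        simp [col, vecMulVec, Matrix.vecHead, Matrix.vecTail]
    have e2 : Φ 1 = 1 := by rw [← map_one r, hΦr, map_one]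
    rw [e1, map_add, hΦmul, hΦmul] at e2
    have e3 := LinearMap.congr_fun e2 u₀
    simp only [LinearMap.add_apply, Module.End.mul_apply, Module.End.one_apply] at e3
    rw [← e3, smul_add, hall, zero_add, ← map_smul, hall, map_zero]
  refine ⟨(LinearMap.applyₗ u).comp (Φ.comp col), ?_, fun g v => ?_⟩
  · refine (injective_iff_map_eq_zero _).mpr fun v hv => ?_
    funext i
    by_contra hvi
    obtain ⟨b, hb⟩ := hc (v i) hvi
    have key : ∀ m : Matrix (Fin 2) (Fin 2) R, Φ (col (m *ᵥ v)) u = 0 := fun m => by
      rw [← hcol, hΦmul, Module.End.mul_apply, show Φ (col v) u = 0 from hv, map_zero]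
    have e := key (vecMulVec ![1, 0] (Pi.single i 1))
    rw [vecMulVec_mulVec, single_dotProduct, one_mul] at e
    refine hu ?_
    have e' : Φ (col (MulOpposite.op (v i) • ![1, 0])) u = v i • Φ (col ![1, 0]) u := by
      rw [show (MulOpposite.op (v i) • ![1, 0] : Fin 2 → R) = v i • ![1, 0] from
        funext fun j => by simp [mul_comm], map_smul, map_smul, LinearMap.smul_apply]
    rw [e'] at e
    rw [hb, mul_smul, e, smul_zero]
  · show Φ (col (r g *ᵥ v)) u = ψ g (Φ (col v) u)
    rw [← hcol, hΦmul, hΦr, Module.End.mul_apply]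

end Fermat.Agent.Two.Lower

end
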