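import Fermat.Agent.RT.Mazur.Torsion
import Fermat.Agent.Two.Lower.Class
import Fermat.Agent.Two.Lower.EmbedAbstract

/-!
# The representation modulo `p ^ m` inside an eigen submodule of `J₀(N)`

An eigen class of exact order `p ^ m` for the Frobenius traces of a representation modulo `p ^ m`
whose matrices span gives a Galois stable copy of that representation made of eigen classes.
-/

set_option autoImplicit false
set_option synthInstance.maxHeartbeats 400000
set_option linter.unusedSectionVars false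

noncomputable section

namespace Fermat.Agent.Two.Lower

open ModularCurve AlgebraicCurve Matrix Fermat.Agent.Arith
open Fermat.Agent.RT.MazurP (IsEigen)

/-- A representation modulo `P` of finite level with the traces `a` and determinants `l` at the
Frobenius elements of almost all primes, whose matrices span. -/
structure Rep (P : ℕ) (G : ℕ → Prop) (a : ℕ → ℤ) where
  /-- The representation. -/
  r : GQ →* Matrix (Fin 2) (Fin 2) (ZMod P)
  finite_level : ∃ L : IntermediateField ℚ QBar, FiniteDimensional ℚ L ∧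
    ∀ σ : GQ, (∀ z ∈ L, σ z = z) → r σ = 1
  cofinite : ∃ S : Finset ℕ, ∀ l, l.Prime → l ∉ S → G l
  frobenius : ∀ l, l.Prime → G l → ∀ B : ValuationSubring QBar, B.LiesOverPrime l →
    ∀ τ : GQ, B.IsFrobeniusAt τ l → (r τ).trace = (a l : ZMod P) ∧ (r τ).det = (l : ZMod P)
  span : Submodule.span (ZMod P) (Set.range r) = ⊤

variable {p : ℕ} [hp : Fact p.Prime]

theorem isLocalRing_zmod_pow {m : ℕ} (hm : m ≠ 0) : IsLocalRing (ZMod (p ^ m)) := by
  have : Fact (1 < p ^ m) := ⟨Nat.one_lt_pow hm hp.out.one_lt⟩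
  exact IsLocalRing.of_surjective' (PadicInt.toZModPow m : ℤ_[p] →+* ZMod (p ^ m))
    (ZMod.ringHom_surjective _)

/-- Every nonzero residue modulo `p ^ m` divides `p ^ (m - 1)`. -/
theorem exists_mul_eq_pow {m : ℕ} (z : ZMod (p ^ m)) (hz : z ≠ 0) :
    ∃ b, ((p ^ (m - 1) : ℕ) : ZMod (p ^ m)) = b * z := by
  obtain ⟨k, rfl⟩ := ZMod.intCast_surjective z
  have hk : k ≠ 0 := fun e => hz (by rw [e, Int.cast_zero])
  obtain ⟨e, u, hu, he⟩ := Nat.exists_eq_pow_mul_and_not_dvd (Int.natAbs_ne_zero.mpr hk) p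
    hp.out.ne_one
  have hem : e < m := by
    by_contra hle
    refine hz ((ZMod.intCast_zmod_eq_zero_iff_dvd _ _).mpr (Int.natCast_dvd.mpr ?_))
    rw [he]
    exact Dvd.dvd.mul_right (pow_dvd_pow p (not_lt.mp hle)) u
  have hcop : Nat.Coprime u (p ^ m) :=
    Nat.Coprime.pow_right m ((hp.out.coprime_iff_not_dvd.mpr hu).symm)
  obtain ⟨v, hv⟩ := ((ZMod.isUnit_iff_coprime u (p ^ m)).mpr hcop).exists_left_inv
  rcases Int.natAbs_eq k with h | h <;> rw [h, he]
  · refine ⟨v * (p ^ (m - 1 - e) : ℕ), ?_⟩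
    conv_lhs => rw [show m - 1 = e + (m - 1 - e) by omega, pow_add]
    push_cast
    linear_combination -((p : ZMod (p ^ m)) ^ e * (p : ZMod (p ^ m)) ^ (m - 1 - e)) * hv
  · refine ⟨-(v * (p ^ (m - 1 - e) : ℕ)), ?_⟩
    conv_lhs => rw [show m - 1 = e + (m - 1 - e) by omega, pow_add]
    push_cast
    linear_combination -((p : ZMod (p ^ m)) ^ e * (p : ZMod (p ^ m)) ^ (m - 1 - e)) * hv

variable {N : ℕ} [NeZero N] {m : ℕ}

set_option maxHeartbeats 1000000 in
/-- A finite stable group killed by `n`, with a vector not killed by `c`, on which Frobenius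
elements satisfy the quadratics of `R`, contains `R`. -/
theorem exists_plane {J : Type*} [AddCommGroup J] [DistribMulAction GQ J]
    {n : ℕ} [IsLocalRing (ZMod n)] (V : AddSubgroup J) [Finite V] (hpV : ∀ v ∈ V, n • v = 0)
    (hst : ∀ g : GQ, ∀ v ∈ V, g • v ∈ V)
    (hfix : ∀ v ∈ V, ∃ L : IntermediateField ℚ QBar, FiniteDimensional ℚ L ∧
      ∀ τ : GQ, (∀ z ∈ L, τ z = z) → τ • v = v)
    {G : ℕ → Prop} {a : ℕ → ℤ} (R : Rep n G a) (c : ℕ)
    (hc : ∀ z : ZMod n, z ≠ 0 → ∃ b, (c : ZMod n) = b * z)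
    (hfrob : ∀ l : ℕ, l.Prime → G l → l ≠ p → ∀ B : ValuationSubring QBar, B.LiesOverPrime l →
      ∀ σ : GQ, B.IsFrobeniusAt σ l → ∀ v ∈ V, σ • σ • v - a l • (σ • v) + l • v = 0)
    {x : J} (hxV : x ∈ V) (hx : c • x ≠ 0) :
    ∃ ι : (Fin 2 → ZMod n) →+ J, Function.Injective ι ∧ (∀ v, ι v ∈ V) ∧
      ∀ g v, ι (R.r g *ᵥ v) = g • ι v := by
  classical
  have htorV : ∀ v : V, n • v = 0 := fun v => Subtype.ext (hpV v v.2)
  let _ : Module (ZMod n) V := AddCommGroup.zmodModule (n := n) htorV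
  let act : GQ → V →+ V := fun g =>
    { toFun := fun v => ⟨g • (v : J), hst g v v.2⟩
      map_zero' := Subtype.ext (smul_zero g)
      map_add' := fun v w => Subtype.ext (smul_add g (v : J) w) }
  let ψ : GQ →* Module.End (ZMod n) V :=
    { toFun := fun g => (act g).toZModLinearMap (n)
      map_one' := LinearMap.ext fun v => Subtype.ext (one_smul GQ (v : J))
      map_mul' := fun g h => LinearMap.ext fun v => Subtype.ext (mul_smul g h (v : J)) }
  have hψ : ∀ g (v : V), ((ψ g v : V) : J) = g • (v : J) := fun g v => rfl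
  have hsmul : ∀ (c : ℤ) (v : V), (((c : ZMod n) • v : V) : J) = c • (v : J) := fun c v => by
    rw [Int.cast_smul_eq_zsmul]; rfl
  have hquad : ∀ g, ψ g * ψ g - (R.r g).trace • ψ g + (R.r g).det • 1 = 0 := by
    intro g
    obtain ⟨L₁, hL₁, h₁⟩ := R.finite_level
    choose L₂ hL₂ h₂ using fun w : V => hfix w w.2
    have : ∀ w, FiniteDimensional ℚ (L₂ w) := hL₂
    obtain ⟨S, hS⟩ := R.cofinite
    obtain ⟨l, hl, hlS, B, hB, τ, hτ, he⟩ :=
      Chebotarev.exists_frobenius_eq (R.r.prod ψ) (L₁ ⊔ ⨆ w, L₂ w) (fun τ hτ => Prod.ext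
        (h₁ τ fun z hz => hτ z ((le_sup_left : L₁ ≤ L₁ ⊔ ⨆ w, L₂ w) hz))
        (LinearMap.ext fun w => Subtype.ext (h₂ w τ fun z hz =>
          hτ z ((le_sup_right : ⨆ w, L₂ w ≤ L₁ ⊔ ⨆ w, L₂ w) (le_iSup L₂ w hz)))))
        g (insert p S)
    rw [MonoidHom.prod_apply, MonoidHom.prod_apply, Prod.mk.injEq] at he
    rw [Finset.mem_insert, not_or] at hlS
    have hGl := hS l hl hlS.2
    obtain ⟨ht, hd⟩ := R.frobenius l hl hGl B hB τ hτ
    rw [← he.1, ← he.2, ht, hd, ← Int.cast_natCast l]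
    refine LinearMap.ext fun w => Subtype.ext ?_
    have key := hfrob l hl hGl hlS.1 B hB τ hτ w w.2
    simp only [LinearMap.add_apply, LinearMap.sub_apply, LinearMap.smul_apply,
      Module.End.mul_apply, Module.End.one_apply, LinearMap.zero_apply, AddSubgroup.coe_add,
      AddSubgroup.coe_sub, AddSubgroup.coe_zero, hsmul, hψ, natCast_zsmul]
    exact key
  obtain ⟨ι, hι, hιg⟩ := exists_embedding hquad R.span ((c : ℕ) : ZMod n)
    hc ⟨x, hxV⟩ (fun e => hx (by
      rw [Nat.cast_smul_eq_nsmul] at e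
      exact (AddSubgroupClass.coe_nsmul _ _).symm.trans (congrArg Subtype.val e)))
  exact ⟨V.subtype.comp ι.toAddMonoidHom, Subtype.val_injective.comp hι,
    fun v => (ι v).2, fun g v => congrArg Subtype.val (hιg g v)⟩

set_option maxHeartbeats 1000000 in
/-- **A plane of eigen classes carrying `R`.** -/
theorem exists_eigen_plane (hm : m ≠ 0) {G : ℕ → Prop} {a : ℕ → ℤ} (R : Rep (p ^ m) G a)
    (hG : ∀ l, l.Prime → G l → ¬ l ∣ N) (hx : HasClass N G a (p ^ m)) :
    ∃ ι : (Fin 2 → ZMod (p ^ m)) →+ JZero N, Function.Injective ι ∧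
      (∀ v, p ^ m • ι v = 0 ∧ IsEigen N G a (ι v)) ∧ ∀ g v, ι (R.r g *ᵥ v) = g • ι v := by
  classical
  obtain ⟨x, hxo, hxe⟩ := hx
  have := isLocalRing_zmod_pow (p := p) hm
  have : NeZero (p ^ m) := ⟨pow_ne_zero m hp.out.ne_zero⟩
  let V : AddSubgroup (JZero N) :=
    { carrier := {v | p ^ m • v = 0 ∧ IsEigen N G a v}
      zero_mem' := ⟨nsmul_zero _, fun l hl _ => by simp⟩
      add_mem' := fun {v w} hv hw => ⟨by rw [nsmul_add, hv.1, hw.1, add_zero], fun l hl hGl => by
        rw [map_add, hv.2 l hl hGl, hw.2 l hl hGl, zsmul_add]⟩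
      neg_mem' := fun {v} hv => ⟨by rw [neg_nsmul, hv.1, neg_zero], fun l hl hGl => by
        rw [map_neg, hv.2 l hl hGl, zsmul_neg]⟩ }
  have hst : ∀ g : GQ, ∀ v ∈ V, g • v ∈ V := fun g v hv =>
    ⟨(map_nsmul (DistribSMul.toAddMonoidHom (JZero N) g) (p ^ m) v).symm.trans
      ((congrArg (g • ·) hv.1).trans (smul_zero (A := JZero N) g)),
    fun l hl hGl => (GaloisReps.galois_heckeOperatorBar (N := N) ⟨l, hl⟩ g v).symm.trans
      ((congrArg (g • ·) (hv.2 l hl hGl)).trans
        (map_zsmul (DistribSMul.toAddMonoidHom (JZero N) g) _ v))⟩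
  have htors : ∀ v ∈ V, v ∈ GaloisReps.JTors N p m := fun v hv => by
    rw [Pic0.mem_torsion, natCast_zsmul]; exact hv.1
  have : Finite (GaloisReps.JTors N p m) := Finite.of_injective _
    ((GaloisReps.torsionIso N p (GaloisReps.conjProperty N)).psi m).injective
  have : Finite V := Finite.of_injective
    (fun v : V => (⟨v, htors v v.2⟩ : GaloisReps.JTors N p m))
    fun v w h => Subtype.ext (congrArg Subtype.val h :)
  obtain ⟨ι, hι, hιV, hιg⟩ := exists_plane V (fun v hv => hv.1) hst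
    (fun v hv => GaloisReps.exists_fixing_torsion (N := N)
      (⟨v, htors v hv⟩ : GaloisReps.JTors N p m)) R (p ^ (m - 1))
    (fun z hz => exists_mul_eq_pow z hz)
    (fun l hl hGl hlp B hB σ hσ v hv => by
      have key := EichlerShimura.frobenius_smul_torsion (RT.Mazur.injectiveOnTorsion N) hl
        (hG l hl hGl) hB hσ (m := p ^ m) (fun h => hlp
          ((Nat.prime_dvd_prime_iff_eq hl hp.out).mp (hl.dvd_of_dvd_pow h))) hv.1
      rwa [(hst σ v hv).2 l hl hGl] at key)
    (x := x) ⟨by rw [← hxo]; exact addOrderOf_nsmul_eq_zero x, hxe⟩ (fun e => by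
      have h2 := addOrderOf_dvd_of_nsmul_eq_zero e
      rw [hxo, Nat.pow_dvd_pow_iff_le_right hp.out.one_lt] at h2
      omega)
  exact ⟨ι, hι, hιV, hιg⟩

/-- The residual datum of a representation modulo `p ^ m`. -/
def Rep.residual (hm : m ≠ 0) {G : ℕ → Prop} {a : ℕ → ℤ} (R : Rep (p ^ m) G a) :
    RT.Mazur.Datum p G a where
  r := ((ZMod.castHom (dvd_pow_self p hm) (ZMod p)).mapMatrix).toMonoidHom.comp R.r
  finite_level := by
    obtain ⟨L, hL, h⟩ := R.finite_level
    exact ⟨L, hL, fun σ hσ => by rw [MonoidHom.comp_apply, h σ hσ, map_one]⟩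
  cofinite := R.cofinite
  frobenius := fun l hl hG B hB τ hτ => by
    obtain ⟨ht, hd⟩ := R.frobenius l hl hG B hB τ hτ
    set c := ZMod.castHom (dvd_pow_self p hm) (ZMod p)
    show (c.mapMatrix (R.r τ)).trace = _ ∧ (c.mapMatrix (R.r τ)).det = _
    refine ⟨?_, by rw [← RingHom.map_det, hd, map_natCast]⟩
    rw [← map_intCast c (a l), ← ht, Matrix.trace_fin_two, Matrix.trace_fin_two, map_add]
    rfl

theorem Rep.span_residual (hm : m ≠ 0) {G : ℕ → Prop} {a : ℕ → ℤ} (R : Rep (p ^ m) G a) :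
    Submodule.span (ZMod p) (Set.range (R.residual hm).r) = ⊤ := by
  set c := ZMod.castHom (dvd_pow_self p hm) (ZMod p)
  refine eq_top_iff.mpr fun x _ => ?_
  obtain ⟨y, rfl⟩ : ∃ y : Matrix (Fin 2) (Fin 2) (ZMod (p ^ m)), c.mapMatrix y = x :=
    ⟨x.map (fun z => (ZMod.ringHom_surjective c z).choose), by
      ext i j; exact (ZMod.ringHom_surjective c (x i j)).choose_spec⟩
  have hy : y ∈ Submodule.span (ZMod (p ^ m)) (Set.range R.r) := R.span ▸ Submodule.mem_top
  induction hy using Submodule.span_induction with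
  | mem _ hx => obtain ⟨g, rfl⟩ := hx; exact Submodule.subset_span ⟨g, rfl⟩
  | zero => simp
  | add _ _ _ _ ha hb =>
    rw [map_add]
    exact Submodule.add_mem _ (ha trivial) (hb trivial)
  | smul b z _ ha =>
    rw [show c.mapMatrix (b • z) = c b • c.mapMatrix z by ext i j; simp]
    exact Submodule.smul_mem _ _ (ha trivial)

/-- Some eigenvalue is not `l + 1` modulo `p`. -/
theorem Rep.exists_ne_succ (hm : m ≠ 0) {G : ℕ → Prop} {a : ℕ → ℤ} (R : Rep (p ^ m) G a) :
    ∃ l, l.Prime ∧ G l ∧ ¬ (p : ℤ) ∣ a l - (1 + (l : ℤ)) :=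
  (R.residual hm).exists_ne_succ (R.span_residual hm)

end Fermat.Agent.Two.Lower

end
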