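import Fermat.Agent.EC.Rep.Tate.Curve
import Fermat.Agent.Two.Lower.Embed
import Fermat.Agent.Two.Inputs
import Mathlib.NumberTheory.Padics.RingHoms

/-!
# The Tate module modulo prime powers

The Galois action on `W[p ^ m]` as matrices: a representation in the sense of `Rep` as soon as the
reduction modulo `p` spans all matrices; the meaning of a unipotent Frobenius for the entries.
-/

set_option autoImplicit false
set_option synthInstance.maxHeartbeats 400000

noncomputable section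

namespace Fermat.Agent.Two.Lower

open Matrix
open ModularCurve Fermat.Agent.Arith
open Fermat.Agent.EC.Rep

variable {W : WeierstrassCurve ℤ} {p : ℕ} [hp : Fact p.Prime] (hΔ : W.Δ ≠ 0)

/-- The standard basis of the Tate module. -/
def tateBas : Module.Basis (Fin 2) ℤ_[p] (tateRep W p hΔ).V :=
  Module.Basis.finTwoProd ℤ_[p]

/-- The matrix of an element on the Tate module. -/
def tateMat : GQ →* Matrix (Fin 2) (Fin 2) ℤ_[p] :=
  (LinearMap.toMatrixAlgEquiv (tateBas hΔ)).toMonoidHom.comp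
    (tateRep W p hΔ).ρ

/-- The matrices modulo `p ^ m`. -/
def tateMod (m : ℕ) : GQ →* Matrix (Fin 2) (Fin 2) (ZMod (p ^ m)) :=
  (PadicInt.toZModPow m : ℤ_[p] →+* ZMod (p ^ m)).mapMatrix.toMonoidHom.comp (tateMat hΔ)

theorem tateMod_apply (m : ℕ) (σ : GQ) (i j : Fin 2) :
    tateMod (p := p) hΔ m σ i j = PadicInt.toZModPow m (tateMat (p := p) hΔ σ i j) := rfl

theorem finite_level_tateMod (m : ℕ) : ∃ L : IntermediateField ℚ QBar, FiniteDimensional ℚ L ∧
    ∀ σ : GQ, (∀ z ∈ L, σ z = z) → tateMod (p := p) hΔ m σ = 1 := by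
  obtain ⟨L, hL, h⟩ := (tateRep W p hΔ).isAdicContinuous m
  refine ⟨L, hL, fun σ hσ => Matrix.ext fun i j => ?_⟩
  set b := tateBas (p := p) hΔ
  have hmem := h σ hσ (b j)
  have hb : ∀ w, w ∈ (IsLocalRing.maximalIdeal ℤ_[p] ^ m) • (⊤ : Submodule ℤ_[p] (tateRep W p hΔ).V) →
      ∀ k, PadicInt.toZModPow m (b.repr w k) = 0 := by
    intro w hw k
    refine Submodule.smul_induction_on hw ?_ ?_
    · intro c hc v _
      rw [PadicInt.maximalIdeal_eq_span_p, Ideal.span_singleton_pow, ← PadicInt.ker_toZModPow,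
        RingHom.mem_ker] at hc
      rw [map_smul, Finsupp.smul_apply, smul_eq_mul, map_mul, hc, zero_mul]
    · intro x y hx hy
      rw [map_add, Finsupp.add_apply, map_add, hx, hy, add_zero]
  have h0 := hb _ hmem i
  rw [map_sub, Finsupp.sub_apply, map_sub, sub_eq_zero] at h0
  rw [tateMod_apply, show tateMat (p := p) hΔ σ i j = b.repr ((tateRep W p hΔ).ρ σ (b j)) i from
    LinearMap.toMatrix_apply b b _ i j]
  refine h0.trans ?_
  rw [b.repr_self, Finsupp.single_apply, Matrix.one_apply]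
  rcases eq_or_ne i j with rfl | hij
  · rw [if_pos rfl, if_pos rfl, map_one]
  · rw [if_neg hij.symm, if_neg hij, map_zero]

theorem frobenius_tateMod (m : ℕ) {l : ℕ} (hl : l.Prime) (hgood : W.IsGoodPrimeFor l)
    (hlp : l ≠ p) {B : ValuationSubring QBar} (hB : B.LiesOverPrime l) {τ : GQ}
    (hτ : B.IsFrobeniusAt τ l) :
    (tateMod (p := p) hΔ m τ).trace = (W.apOfModel l : ZMod (p ^ m)) ∧
      (tateMod (p := p) hΔ m τ).det = (l : ZMod (p ^ m)) := by
  obtain ⟨ht, hd⟩ := tateRep_trace_det_frobenius (p := p) hΔ hl hgood hlp hB hτ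
  set f := (PadicInt.toZModPow m : ℤ_[p] →+* ZMod (p ^ m))
  have hd' : (tateMat (p := p) hΔ τ).det = (l : ℤ_[p]) :=
    (LinearMap.det_toMatrix (tateBas (p := p) hΔ) _).trans hd
  have ht' : (tateMat (p := p) hΔ τ).trace = (W.apOfModel l : ℤ_[p]) :=
    (LinearMap.trace_eq_matrix_trace ℤ_[p] (tateBas (p := p) hΔ) _).symm.trans ht
  constructor
  · rw [← map_intCast f, ← ht', Matrix.trace_fin_two, Matrix.trace_fin_two, map_add]
    rfl
  · rw [← map_natCast f, ← hd', RingHom.map_det]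
    rfl

/-- A submodule equal to everything modulo `p` is everything modulo `p ^ m`. -/
theorem eq_top_of_sup_smul_top {R M : Type*} [CommRing R] [AddCommGroup M] [Module R M]
    (S : Submodule R M) {c : R} (h : ∀ x, ∃ s ∈ S, ∃ y, x = s + c • y) {k : ℕ} (hk : c ^ k = 0) :
    S = ⊤ := by
  refine eq_top_iff.mpr fun x _ => ?_
  suffices ∀ j x, ∃ s ∈ S, ∃ y, x = s + c ^ j • y by
    obtain ⟨s, hs, y, rfl⟩ := this k x
    rwa [hk, zero_smul, add_zero]
  intro j
  induction j with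
  | zero => exact fun x => ⟨0, zero_mem _, x, by rw [pow_zero, one_smul, zero_add]⟩
  | succ j ih =>
    intro x
    obtain ⟨s, hs, y, rfl⟩ := ih x
    obtain ⟨t, ht, z, rfl⟩ := h y
    exact ⟨s + c ^ j • t, add_mem hs (S.smul_mem _ ht), z, by
      rw [smul_add, smul_smul, ← pow_succ, add_assoc]⟩

/-- Spanning modulo `p` gives spanning modulo `p ^ m`. -/
theorem span_tateMod (hspan : Submodule.span (ZMod (p ^ 1)) (Set.range (tateMod (p := p) hΔ 1)) = ⊤)
    {m : ℕ} (hm : m ≠ 0) :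
    Submodule.span (ZMod (p ^ m)) (Set.range (tateMod (p := p) hΔ m)) = ⊤ := by
  refine eq_top_of_sup_smul_top _ (c := (p : ZMod (p ^ m))) ?_ (k := m) (by
    rw [← Nat.cast_pow]; exact ZMod.natCast_self _)
  set c := ZMod.castHom (pow_dvd_pow p (Nat.one_le_iff_ne_zero.mpr hm)) (ZMod (p ^ 1)) with hc
  have key : ∀ x : Matrix (Fin 2) (Fin 2) (ZMod (p ^ 1)),
      ∃ s ∈ Submodule.span (ZMod (p ^ m)) (Set.range (tateMod (p := p) hΔ m)),
        c.mapMatrix s = x := by
    intro x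
    have hx : x ∈ Submodule.span (ZMod (p ^ 1)) (Set.range (tateMod (p := p) hΔ 1)) :=
      hspan ▸ Submodule.mem_top
    induction hx using Submodule.span_induction with
    | mem _ hy =>
      obtain ⟨g, rfl⟩ := hy
      refine ⟨_, Submodule.subset_span ⟨g, rfl⟩, Matrix.ext fun i j => ?_⟩
      rw [tateMod_apply, RingHom.mapMatrix_apply, Matrix.map_apply, tateMod_apply, hc]
      exact RingHom.congr_fun (PadicInt.zmod_cast_comp_toZModPow 1 m (Nat.one_le_iff_ne_zero.mpr hm))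
        _
    | zero => exact ⟨0, zero_mem _, map_zero _⟩
    | add _ _ _ _ ha hb =>
      obtain ⟨s, hs, rfl⟩ := ha
      obtain ⟨t, ht, rfl⟩ := hb
      exact ⟨s + t, add_mem hs ht, map_add _ _ _⟩
    | smul b _ _ ha =>
      obtain ⟨s, hs, rfl⟩ := ha
      obtain ⟨b', rfl⟩ := ZMod.ringHom_surjective c b
      exact ⟨b' • s, Submodule.smul_mem _ _ hs, by ext i j; simp⟩
  intro x
  obtain ⟨s, hs, he⟩ := key (c.mapMatrix x)
  have hd : ∀ i j, ∃ y, x i j - s i j = (p : ZMod (p ^ m)) * y := by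
    intro i j
    obtain ⟨z, hz⟩ := ZMod.intCast_surjective (x i j - s i j)
    have h0 : c (x i j - s i j) = 0 := by
      rw [map_sub, sub_eq_zero]
      exact (congrFun (congrFun he i) j).symm
    rw [← hz, map_intCast, ZMod.intCast_zmod_eq_zero_iff_dvd, pow_one] at h0
    obtain ⟨y, rfl⟩ := h0
    exact ⟨(y : ZMod (p ^ m)), by rw [← hz]; push_cast; rfl⟩
  choose y hy using hd
  refine ⟨s, hs, Matrix.of y, Matrix.ext fun i j => ?_⟩
  rw [Matrix.add_apply, Matrix.smul_apply, Matrix.of_apply, smul_eq_mul, ← hy]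
  ring

/-- The representation on `W[p ^ m]`. -/
def tateModRep (hspan : Submodule.span (ZMod (p ^ 1)) (Set.range (tateMod (p := p) hΔ 1)) = ⊤)
    {m : ℕ} (hm : m ≠ 0) (G : ℕ → Prop) (hcof : ∃ S : Finset ℕ, ∀ l, l.Prime → l ∉ S → G l)
    (hG : ∀ l, l.Prime → G l → W.IsGoodPrimeFor l ∧ l ≠ p) :
    Rep (p ^ m) G W.apOfModel where
  r := tateMod hΔ m
  finite_level := finite_level_tateMod hΔ m
  cofinite := hcof
  frobenius := fun l hl hGl _ hB _ hτ =>
    frobenius_tateMod hΔ m hl (hG l hl hGl).1 (hG l hl hGl).2 hB hτ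
  span := span_tateMod hΔ hspan hm

theorem tateMod_inertia (m : ℕ) {v : ℕ} (hv : v.Prime) (hgood : W.IsGoodPrimeFor v) (hvp : v ≠ p)
    {A : ValuationSubring QBar} (hA : A.LiesOverPrime v) {τ : GQ}
    (hτ : τ ∈ A.inertiaSubgroupIn ℚ) : tateMod (p := p) hΔ m τ = 1 := by
  have h := isUnramifiedAt_tateRep (p := p) hΔ hv hgood hvp A hA τ hτ
  show (PadicInt.toZModPow m).mapMatrix (LinearMap.toMatrixAlgEquiv (tateBas (p := p) hΔ)
    ((tateRep W p hΔ).ρ τ)) = 1
  rw [h, map_one, map_one]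

/-- The entries of a Frobenius element which is unipotent modulo `2 ^ n`, nontrivially modulo
`2`. -/
theorem unipotent_entries [Fact (Nat.Prime 2)] {v n : ℕ} (h : UnipotentFrobAt W hΔ v n) :
    ∃ A : ValuationSubring QBar, A.LiesOverPrime v ∧ ∃ σ : GQ, A.IsFrobeniusAt σ v ∧
      ∀ m, m ≤ n → ((tateMod (p := 2) hΔ m σ - 1) * (tateMod (p := 2) hΔ m σ - 1) = 0 ∧
        (m ≠ 0 → ∃ i j, ((2 ^ (m - 1) : ℕ) : ZMod (2 ^ m)) * (tateMod (p := 2) hΔ m σ - 1) i j
          ≠ 0)) := by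
  obtain ⟨A, hA, σ, hσ, hsq, x, hx⟩ := h
  refine ⟨A, hA, σ, hσ, fun m hmn => ?_⟩
  set b := tateBas (p := 2) hΔ
  set T := (tateRep W 2 hΔ).ρ σ - 1 with hT
  set Tm := LinearMap.toMatrixAlgEquiv b T with hTm
  set f := (PadicInt.toZModPow m : ℤ_[2] →+* ZMod (2 ^ m))
  have hmat : tateMod (p := 2) hΔ m σ - 1 = f.mapMatrix Tm := by
    show f.mapMatrix (LinearMap.toMatrixAlgEquiv b ((tateRep W 2 hΔ).ρ σ)) - 1 = _
    rw [hTm, hT]
    change _ = f.mapMatrix (LinearMap.toMatrixAlgEquiv b ((tateRep W 2 hΔ).ρ σ - 1))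
    rw [map_sub, map_one, map_sub, map_one]
  have hmem : ∀ (k : ℕ) (w : (tateRep W 2 hΔ).V),
      w ∈ (Ideal.span {(2 : ℤ_[2]) ^ k}) • (⊤ : Submodule ℤ_[2] (tateRep W 2 hΔ).V) ↔
      ∀ i, b.repr w i ∈ Ideal.span {(2 : ℤ_[2]) ^ k} := by
    intro k w
    constructor
    · intro hw i
      refine Submodule.smul_induction_on hw ?_ ?_
      · intro c hc v _
        rw [map_smul, Finsupp.smul_apply, smul_eq_mul]
        exact Ideal.mul_mem_right _ _ hc
      · intro x y hx hy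
        rw [map_add, Finsupp.add_apply]; exact add_mem hx hy
    · intro hw
      rw [← b.sum_repr w]
      exact sum_mem fun i _ => Submodule.smul_mem_smul (hw i) Submodule.mem_top
  refine ⟨?_, fun hm => ?_⟩
  · rw [hmat, ← map_mul, hTm, ← map_mul]
    refine Matrix.ext fun i j => ?_
    rw [RingHom.mapMatrix_apply, Matrix.map_apply, Matrix.zero_apply,
      LinearMap.toMatrixAlgEquiv_apply, ← RingHom.mem_ker, PadicInt.ker_toZModPow]
    have h1 := (hmem n _).mp (hsq (b j)) i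
    obtain ⟨c, hc⟩ := Ideal.mem_span_singleton.mp h1
    refine Ideal.mem_span_singleton.mpr ⟨(2 : ℤ_[2]) ^ (n - m) * c, ?_⟩
    rw [← mul_assoc, Nat.cast_ofNat, ← pow_add, Nat.add_sub_cancel' hmn]
    exact hc
  · by_contra hall
    simp only [not_exists, not_not] at hall
    refine hx ?_
    rw [← pow_one (2 : ℤ_[2])]
    refine (hmem 1 _).mpr fun i => ?_
    rw [← b.sum_repr x, map_sum, map_sum, Finsupp.finsetSum_apply]
    refine sum_mem fun j _ => ?_
    rw [map_smul, map_smul, Finsupp.smul_apply, smul_eq_mul]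
    refine Ideal.mul_mem_left _ _ ?_
    have h0 := hall i j
    rw [hmat, RingHom.mapMatrix_apply, Matrix.map_apply, ← map_natCast f, ← map_mul,
      ← RingHom.mem_ker, PadicInt.ker_toZModPow] at h0
    obtain ⟨c, hc⟩ := Ideal.mem_span_singleton.mp h0
    refine Ideal.mem_span_singleton.mpr ⟨c, mul_left_cancel₀ (pow_ne_zero (m - 1)
      (two_ne_zero (α := ℤ_[2]))) ?_⟩
    rw [← LinearMap.toMatrixAlgEquiv_apply, ← hTm, pow_one, ← mul_assoc, ← pow_succ,
      Nat.sub_add_cancel (Nat.one_le_iff_ne_zero.mpr hm)]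
    push_cast at hc
    exact hc

end Fermat.Agent.Two.Lower

end
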