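import Fermat.Agent.Two.Lower.Class

/-!
# Eigen classes of unbounded order give an eigenform

If for every finite set of primes there are eigen classes of arbitrarily large `p`-power order at
level `N`, the eigenvalues are those of an eigenform of level `N`.
-/

set_option autoImplicit false
set_option synthInstance.maxHeartbeats 400000
set_option linter.unusedSectionVars false

noncomputable section

namespace Fermat.Agent.Two.Lower

open ModularCurve AlgebraicCurve Fermat.Agent.GaloisReps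
open Fermat.Agent.RT.MazurP (IsEigen)
open scoped Matrix

/-- Over a minimal prime, an ideal meeting `ℤ` in zero is that prime, for an algebra finite over
`ℤ`. -/
theorem eq_of_comap_int_eq_bot {T : Type*} [CommRing T] [Module.Finite ℤ T] {P J : Ideal T}
    [P.IsPrime] (hPJ : P ≤ J) (h0 : ∀ m : ℤ, (m : T) ∈ J → m = 0) : J = P := by
  let q : T →+* T ⧸ P := Ideal.Quotient.mk P
  have : Algebra.IsIntegral ℤ (T ⧸ P) := Algebra.IsIntegral.of_finite ℤ _
  have hbot : J.map q = ⊥ := by
    apply Ideal.eq_bot_of_comap_eq_bot (R := ℤ)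
    refine eq_bot_iff.2 fun m hm => ?_
    rw [Ideal.mem_comap, eq_intCast (algebraMap ℤ (T ⧸ P)), ← map_intCast q m,
      ← Ideal.mem_comap, Ideal.comap_map_of_surjective' _ Ideal.Quotient.mk_surjective,
      Ideal.mk_ker, sup_eq_left.2 hPJ] at hm
    simpa using h0 m hm
  refine le_antisymm (fun t ht => ?_) hPJ
  have := Ideal.mem_map_of_mem q ht
  rwa [hbot, Submodule.mem_bot, Ideal.Quotient.eq_zero_iff_mem] at this

variable {N p : ℕ} [NeZero N] [Fact p.Prime] {G : ℕ → Prop} {a : ℕ → ℤ}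

set_option maxHeartbeats 800000 in
/-- **The limit eigenform.** -/
theorem exists_eigenform_of_classes
    (h : ∀ F : Finset ℕ, (∀ l ∈ F, l.Prime ∧ G l) → ∀ M, HasClass N (· ∈ F) a (p ^ M)) :
    ∃ f : CuspForm (CongruenceSubgroup.Gamma0 N) 2, f.IsNormalizedEigenform ∧
      ∀ l : ℕ, l.Prime → G l → ModularFormClass.qCoeff f l = (a l : ℂ) := by
  classical
  have hfin : Module.Finite ℤ (FullHecke N) := IntegralStructure.heckeAlgebra_finite N 2 ∅
  let gen : {l : ℕ // l.Prime ∧ G l} → FullHecke N := fun l =>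
    HeckeDuality.heckeOp N 2 l.1 l.2.1 - (a l.1 : FullHecke N)
  set I : Ideal (FullHecke N) := Ideal.span (Set.range gen) with hI
  have hIZ : ∀ z : ℤ, (z : FullHecke N) ∈ I → z = 0 := by
    intro z hz
    obtain ⟨c, hc⟩ := (Finsupp.mem_span_range_iff_exists_finsupp).mp hz
    obtain ⟨y, hy, he⟩ := h (c.support.image Subtype.val) (fun l hl => by
      obtain ⟨s, -, rfl⟩ := Finset.mem_image.mp hl
      exact s.2) z.natAbs
    have : NeZero (p ^ z.natAbs) := ⟨pow_ne_zero _ (Fact.out : p.Prime).ne_zero⟩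
    let x : JTors N p z.natAbs := ⟨y, by
      rw [Pic0.mem_torsion, natCast_zsmul, ← hy]; exact addOrderOf_nsmul_eq_zero y⟩
    set E := torsionIso N p (conjProperty N)
    set Φ := matIn (latticeMat N) (ZMod (p ^ z.natAbs))
    have hgen : ∀ s ∈ c.support, Φ (gen s) *ᵥ E.psi _ x = 0 := fun s hs => by
      rw [map_sub, map_intCast, Matrix.sub_mulVec, mulVec_heckeOp, intCast_mulVec, sub_eq_zero,
        show heckeTors z.natAbs ⟨s.1, s.2.1⟩ x = a s.1 • x from
          Subtype.ext (he s.1 s.2.1 (Finset.mem_image_of_mem _ hs)), map_zsmul]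
    have h0 : z • E.psi _ x = 0 := by
      rw [← intCast_mulVec, ← map_intCast Φ, ← hc, Finsupp.sum, map_sum, Matrix.sum_mulVec]
      refine Finset.sum_eq_zero fun s hs => ?_
      rw [smul_eq_mul, map_mul, ← Matrix.mulVec_mulVec, hgen s hs, Matrix.mulVec_zero]
    rw [← map_zsmul, EmbeddingLike.map_eq_zero_iff] at h0
    have h1 : ((p ^ z.natAbs : ℕ) : ℤ) ∣ z := by
      rw [← hy, addOrderOf_dvd_iff_zsmul_eq_zero]
      exact (AddSubgroup.coe_zsmul _ x z).symm.trans (congrArg Subtype.val h0)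
    refine Int.natAbs_eq_zero.mp (Nat.eq_zero_of_dvd_of_lt (Int.natCast_dvd.mp h1) ?_)
    exact Nat.lt_pow_self (Fact.out : p.Prime).one_lt
  let S : Submonoid (FullHecke N) := (nonZeroDivisors ℤ).map (Int.castRingHom (FullHecke N))
  have hd : Disjoint (I : Set (FullHecke N)) S := Set.disjoint_left.mpr fun t ht hS => by
    obtain ⟨z, hz, rfl⟩ := Submonoid.mem_map.mp hS
    exact nonZeroDivisors.ne_zero hz (hIZ z ht)
  obtain ⟨P, hP, hIP, hPd⟩ := Ideal.exists_le_prime_disjoint I S hd
  have hPZ : ∀ z : ℤ, (z : FullHecke N) ∈ P → z = 0 := fun z hz => by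
    by_contra hne
    exact Set.disjoint_left.mp hPd hz
      (Submonoid.mem_map.mpr ⟨z, mem_nonZeroDivisors_of_ne_zero hne, rfl⟩)
  obtain ⟨𝔭, hmin, hle⟩ := Ideal.exists_minimalPrimes_le (bot_le : ⊥ ≤ P)
  have : 𝔭.IsPrime := hmin.1.1
  obtain ⟨f, θ, hnorm, hker, hcoeff⟩ := HeckeDuality.exists_eigenform_of_minimalPrime
    (IntegralStructure.hasIntegralStructure N 2) 𝔭 hmin
  refine ⟨f, hnorm, fun l hl hG => ?_⟩
  have hmem : gen ⟨l, hl, hG⟩ ∈ RingHom.ker θ := by
    rw [eq_of_comap_int_eq_bot hker fun m hm => by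
      rw [RingHom.mem_ker, map_intCast] at hm
      simpa using hm, ← eq_of_comap_int_eq_bot hle hPZ]
    exact hIP (Ideal.subset_span ⟨_, rfl⟩)
  rw [RingHom.mem_ker, map_sub, map_intCast, sub_eq_zero] at hmem
  rw [hcoeff l hl]
  exact hmem

end Fermat.Agent.Two.Lower

end
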