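import Fermat.Agent.Two.Lower.Descend
import Fermat.Agent.Two.Lower.Limit
import Fermat.Agent.Two.Lower.Span

/-!
# Lowering modulo powers of two

Congruences of unbounded depth at the levels `4 * badLevel W * ∏ V`, the primes of `V` having
unipotent Frobenius, give an eigenform of level `4 * badLevel W` with the eigenvalues of `W`:
each prime costs one power of `2`, and classes of unbounded order give an exact eigenform.
-/

set_option autoImplicit false
set_option linter.style.haveILetI false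
set_option synthInstance.maxHeartbeats 400000

noncomputable section

namespace Fermat.Agent.Two.Lower

open Matrix ModularCurve Fermat.Agent.Arith
open Fermat.Agent.RT.Mazur (noElliptic_of_dvd)

/-- A unipotent nontrivial matrix modulo `2 ^ (m + 2)` has determinant `1`. -/
theorem det_eq_one_of_unipotent {m : ℕ} (U : Matrix (Fin 2) (Fin 2) (ZMod (2 ^ (m + 2))))
    (hU : (U - 1) * (U - 1) = 0)
    (hne : ∃ i j, ((2 ^ (m + 1) : ℕ) : ZMod (2 ^ (m + 2))) * (U - 1) i j ≠ 0) : U.det = 1 := by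
  haveI : Fact (Nat.Prime 2) := ⟨Nat.prime_two⟩
  set N := U - 1 with hN
  set c : ZMod (2 ^ (m + 2)) := ((2 ^ (m + 1) : ℕ) : ZMod (2 ^ (m + 2))) with hc
  have h00 := congrFun (congrFun hU 0) 0
  have h01 := congrFun (congrFun hU 0) 1
  have h10 := congrFun (congrFun hU 1) 0
  have h11 := congrFun (congrFun hU 1) 1
  simp only [Matrix.mul_apply, Fin.sum_univ_two, Matrix.zero_apply] at h00 h01 h10 h11
  have hc2 : c * 2 = 0 := by
    rw [hc, show ((2 ^ (m + 1) : ℕ) : ZMod (2 ^ (m + 2))) * 2 =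
      ((2 ^ (m + 2) : ℕ) : ZMod (2 ^ (m + 2))) by push_cast; ring]
    exact ZMod.natCast_self _
  -- an element not killed by `c` is a unit
  have hu : ∀ z : ZMod (2 ^ (m + 2)), c * z ≠ 0 → IsUnit z := by
    intro z hz
    obtain ⟨k, rfl⟩ := ZMod.natCast_zmod_surjective z
    rw [ZMod.isUnit_iff_coprime]
    refine Nat.Coprime.pow_right _ ((Nat.prime_two.coprime_iff_not_dvd.mpr fun ⟨k', hk⟩ => hz ?_).symm)
    rw [hk, Nat.cast_mul, ← mul_assoc, Nat.cast_ofNat, hc2, zero_mul]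
  have hd : N.det = 0 ∧ N 0 0 + N 1 1 = 0 := by
    have hoff : c * N 0 1 ≠ 0 ∨ c * N 1 0 ≠ 0 := by
      by_contra h
      simp only [not_or, not_not] at h
      obtain ⟨h1, h2⟩ := h
      obtain ⟨i, j, hij⟩ := hne
      have d0 : c * N 0 0 = 0 := by
        by_contra h'
        have e : c * (N 0 0 * N 0 0) = 0 := by
          linear_combination c * h00 - N 1 0 * h1
        exact h' (((hu _ h').mul_left_inj).mp (by rw [zero_mul, mul_assoc]; exact e))
      have d1 : c * N 1 1 = 0 := by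
        by_contra h'
        have e : c * (N 1 1 * N 1 1) = 0 := by
          linear_combination c * h11 - N 1 0 * h1
        exact h' (((hu _ h').mul_left_inj).mp (by rw [zero_mul, mul_assoc]; exact e))
      fin_cases i <;> fin_cases j <;> contradiction
    have ht : N 0 0 + N 1 1 = 0 := by
      rcases hoff with h | h
      · exact ((hu _ h).mul_left_eq_zero).mp (by linear_combination h01)
      · exact ((hu _ h).mul_left_eq_zero).mp (by linear_combination h10)
    exact ⟨by rw [det_fin_two]; linear_combination N 0 0 * ht - h00, ht⟩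
  obtain ⟨hd, ht⟩ := hd
  rw [det_fin_two] at hd ⊢
  simp only [hN, Matrix.sub_apply, Matrix.one_apply_eq, ne_eq, zero_ne_one, one_ne_zero,
    not_false_eq_true, Matrix.one_apply_ne, sub_zero] at hd ht
  linear_combination hd + ht

/-- The good primes outside `V`. -/
def goodOutside (W : WeierstrassCurve ℤ) (V : Finset ℕ) (l : ℕ) : Prop :=
  W.IsGoodPrimeFor l ∧ l ≠ 2 ∧ l ∉ V

variable {W : WeierstrassCurve ℤ}

theorem not_dvd_level (hΔ : W.Δ ≠ 0) {V T : Finset ℕ} (hV : ∀ v ∈ V, v.Prime) (hT : T ⊆ V) {l : ℕ}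
    (hl : l.Prime) (hgood : W.IsGoodPrimeFor l) (h2 : l ≠ 2) (hlT : l ∉ T) :
    ¬ l ∣ 4 * badLevel W * ∏ v ∈ T, v := by
  intro hd
  rcases hl.dvd_mul.mp hd with h | h
  · rcases hl.dvd_mul.mp h with h | h
    · exact h2 ((Nat.prime_dvd_prime_iff_eq hl Nat.prime_two).mp
        (hl.dvd_of_dvd_pow (m := 2) (n := 2) h))
    · exact hgood ((prime_dvd_badLevel_iff hΔ hl).mp h)
  · obtain ⟨v, hv, hlv⟩ := (Prime.dvd_finsetProd_iff hl.prime _).1 h
    exact hlT ((Nat.prime_dvd_prime_iff_eq hl (hV v (hT hv))).mp hlv ▸ hv)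

theorem level_ne_zero {V T : Finset ℕ} (hV : ∀ v ∈ V, v.Prime) (hT : T ⊆ V) :
    4 * badLevel W * ∏ v ∈ T, v ≠ 0 :=
  mul_ne_zero (mul_ne_zero (by norm_num) (badLevel_pos W).ne')
    (Finset.prod_ne_zero_iff.mpr fun v hv => (hV v (hT hv)).ne_zero)

set_option maxHeartbeats 1000000 in
/-- One prime of `V` is removed at the cost of one power of `2`. -/
theorem hasClass_step (hW : TwoCurve W) {V T : Finset ℕ} {v n m : ℕ}
    (hV : ∀ w ∈ V, AuxPrime W hW.Δ_ne_zero w n) (hT : T ⊆ V) (hv : v ∈ V) (hvT : v ∉ T)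
    (hmn : m + 2 ≤ n) [NeZero (v * (4 * badLevel W * ∏ w ∈ T, w))]
    [NeZero (4 * badLevel W * ∏ w ∈ T, w)]
    (hx : HasClass (v * (4 * badLevel W * ∏ w ∈ T, w)) (goodOutside W V) W.apOfModel (2 ^ (m + 2))) :
    HasClass (4 * badLevel W * ∏ w ∈ T, w) (goodOutside W V) W.apOfModel (2 ^ (m + 1)) := by
  classical
  haveI : Fact (Nat.Prime 2) := ⟨Nat.prime_two⟩
  have hΔ := hW.Δ_ne_zero
  have hVp : ∀ w ∈ V, w.Prime := fun w hw => (hV w hw).prime
  have hv' := hV v hv
  haveI : Fact v.Prime := ⟨hv'.prime⟩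
  set L := 4 * badLevel W * ∏ w ∈ T, w
  have hvL : ¬ v ∣ L := not_dvd_level hΔ hVp hT hv'.prime hv'.good hv'.ne_two hvT
  have hG : ∀ l, l.Prime → goodOutside W V l → ¬ l ∣ v * L := fun l hl hl' hd =>
    (hl.dvd_mul.mp hd).elim
      (fun h => hl'.2.2 ((Nat.prime_dvd_prime_iff_eq hl hv'.prime).mp h ▸ hv))
      (not_dvd_level hΔ hVp hT hl hl'.1 hl'.2.1 fun h => hl'.2.2 (hT h))
  have hcof : ∃ S : Finset ℕ, ∀ l, l.Prime → l ∉ S → goodOutside W V l := by
    refine ⟨insert 2 (V ∪ W.Δ.natAbs.primeFactors), fun l hl hlS => ?_⟩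
    simp only [Finset.mem_insert, Finset.mem_union, not_or] at hlS
    exact ⟨fun hd => hlS.2.2 (Nat.mem_primeFactors.mpr
      ⟨hl, Int.natCast_dvd.mp hd, Int.natAbs_ne_zero.mpr hΔ⟩), hlS.1, hlS.2.1⟩
  let R := tateModRep (p := 2) hΔ (span_tateMod_one hW) (m := m + 2) (by omega) (goodOutside W V)
    hcof fun l _ h => ⟨h.1, h.2.1⟩
  obtain ⟨A, hA, σ, hσ, hu⟩ := unipotent_entries hΔ hv'.unipotent
  obtain ⟨hsq, hne⟩ := hu (m + 2) hmn
  obtain ⟨i, j, hij⟩ := hne (by omega)
  set U := tateMod (p := 2) hΔ (m + 2) σ with hU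
  have hsq' : U * U = 2 • (U - 1) + 1 := by
    rw [two_nsmul, ← sub_eq_zero, ← hsq]
    noncomm_ring
  have hv1 : ((v ^ 2 : ℕ) : ZMod (2 ^ (m + 2))) = 1 := by
    rw [Nat.cast_pow, ← (frobenius_tateMod (p := 2) hΔ (m + 2) hv'.prime hv'.good hv'.ne_two hA hσ).2,
      ← hU, det_eq_one_of_unipotent U hsq ⟨i, j, hij⟩, one_pow]
  refine hasClass_descend hvL hv'.ne_two.symm (noElliptic_of_dvd (Or.inl rfl)
    ((dvd_mul_right 4 _).trans (dvd_mul_right _ _))) hG (m := m + 2) (by omega) R hA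
    (fun τ hτ => tateMod_inertia hΔ (m + 2) hv'.prime hv'.good hv'.ne_two hA hτ) hσ (j := m)
    ⟨Pi.single j 1, fun h => hij ?_⟩ hx
  change 2 ^ m • ((U * U) *ᵥ Pi.single j 1 - v ^ 2 • Pi.single j 1) = 0 at h
  rw [hsq', add_mulVec, one_mulVec, ← Nat.cast_smul_eq_nsmul (ZMod (2 ^ (m + 2))) (v ^ 2), hv1,
    one_smul, add_sub_cancel_right, smul_mulVec, smul_smul] at h
  have h' := congrFun h i
  simp only [Matrix.mulVec_single_one, Pi.smul_apply, Matrix.col_apply, Pi.zero_apply,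
    nsmul_eq_mul] at h'
  push_cast at h' ⊢
  linear_combination h'

set_option maxHeartbeats 1000000 in
/-- All primes of `V` are removed. -/
theorem hasClass_removed (hW : TwoCurve W) {V : Finset ℕ} {n : ℕ} (hn : V.card < n)
    (hV : ∀ w ∈ V, AuxPrime W hW.Δ_ne_zero w n)
    (hc : CongrTwo W (4 * badLevel W * ∏ v ∈ V, v) n) :
    haveI : NeZero (4 * badLevel W) := ⟨mul_ne_zero (by norm_num) (badLevel_pos W).ne'⟩
    HasClass (4 * badLevel W) (goodOutside W V) W.apOfModel (2 ^ (n - V.card)) := by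
  classical
  haveI : Fact (Nat.Prime 2) := ⟨Nat.prime_two⟩
  have hΔ := hW.Δ_ne_zero
  have hVp : ∀ w ∈ V, w.Prime := fun w hw => (hV w hw).prime
  suffices key : ∀ S : Finset ℕ, S ⊆ V → ∀ N : ℕ, ∀ _ : NeZero N,
      N = 4 * badLevel W * ∏ v ∈ V \ S, v →
        HasClass N (goodOutside W V) W.apOfModel (2 ^ (n - S.card)) by
    exact key V subset_rfl _ _ (by rw [Finset.sdiff_self, Finset.prod_empty, mul_one])
  intro S
  induction S using Finset.induction with
  | empty =>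
    intro _ N _ hN
    rw [Finset.sdiff_empty] at hN
    subst hN
    rw [Finset.card_empty, Nat.sub_zero]
    obtain ⟨f, hf, A, hA, h⟩ := hc
    exact hasClass_of_congr ⟨f, hf, A, by simpa using hA, fun l hl hl' => by
      simpa using h l hl hl'.1 hl'.2.1
        (not_dvd_level hΔ hVp subset_rfl hl hl'.1 hl'.2.1 hl'.2.2)⟩
  | insert v S hvS ih =>
    intro hS N _ hN
    subst hN
    have hv : v ∈ V := hS (Finset.mem_insert_self v S)
    have hTV : V \ insert v S ⊆ V := Finset.sdiff_subset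
    have hvT : v ∉ V \ insert v S := fun h => (Finset.mem_sdiff.mp h).2 (Finset.mem_insert_self v S)
    have heq : V \ S = insert v (V \ insert v S) := by
      ext x
      simp only [Finset.mem_sdiff, Finset.mem_insert]
      by_cases hx : x = v
      · subst hx; simp [hv, hvS]
      · simp [hx]
    haveI : NeZero (v * (4 * badLevel W * ∏ w ∈ V \ insert v S, w)) :=
      ⟨mul_ne_zero (hV v hv).prime.ne_zero (level_ne_zero hVp hTV)⟩
    have h1 := ih (fun x hx => hS (Finset.mem_insert_of_mem hx))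
      (v * (4 * badLevel W * ∏ w ∈ V \ insert v S, w)) ‹_› (by
        rw [heq, Finset.prod_insert hvT]; ring)
    have hcard : (insert v S).card = S.card + 1 := Finset.card_insert_of_notMem hvS
    have hle : (insert v S).card ≤ V.card := Finset.card_le_card hS
    obtain ⟨m, hm⟩ : ∃ m, n - S.card = m + 2 := ⟨n - S.card - 2, by omega⟩
    rw [hm] at h1
    rw [show n - (insert v S).card = m + 1 by omega]
    exact hasClass_step hW hV hTV hv hvT (by omega) h1

/-- **Lowering modulo powers of two.** -/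
theorem loweringInput : LoweringInput := by
  classical
  intro W hW h
  haveI : Fact (Nat.Prime 2) := ⟨Nat.prime_two⟩
  have hΔ := hW.Δ_ne_zero
  haveI : NeZero (4 * badLevel W) := ⟨mul_ne_zero (by norm_num) (badLevel_pos W).ne'⟩
  suffices hcl : ∀ F : Finset ℕ, (∀ l ∈ F, l.Prime ∧ W.IsGoodPrimeFor l ∧ l ≠ 2) → ∀ M,
      HasClass (4 * badLevel W) (· ∈ F) W.apOfModel (2 ^ M) by
    obtain ⟨f, hf, hfW⟩ := exists_eigenform_of_classes (N := 4 * badLevel W) (p := 2)
      (G := fun l => W.IsGoodPrimeFor l ∧ l ≠ 2) (a := W.apOfModel) hcl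
    exact ⟨f, hf, fun l hl hgood h2 => hfW l hl ⟨hgood, h2⟩⟩
  intro F hF M
  obtain ⟨n, V, hn, hV, hc⟩ := h (M + F.sup id + 2)
  obtain ⟨y, hy, he⟩ := hasClass_removed hW (by omega : V.card < n) hV hc
  have hlF : ∀ l ∈ F, l ∉ V := fun l hl hlV => by
    have hle : l ≤ F.sup id := Finset.le_sup (f := id) hl
    obtain ⟨A, hA, σ, hσ, hu⟩ := unipotent_entries hΔ (hV l hlV).unipotent
    obtain ⟨hsq, hne⟩ := hu n le_rfl
    obtain ⟨m, rfl⟩ : ∃ m, n = m + 2 := ⟨n - 2, by omega⟩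
    have hd := (frobenius_tateMod (p := 2) hΔ (m + 2) (hV l hlV).prime (hV l hlV).good
      (hV l hlV).ne_two hA hσ).2
    rw [det_eq_one_of_unipotent _ hsq (hne (by omega)), ← Nat.cast_one,
      ZMod.natCast_eq_natCast_iff] at hd
    have hd' := (Nat.modEq_iff_dvd' (hV l hlV).prime.one_le).mp hd
    have h1 : 2 ^ (m + 2) ≤ l - 1 :=
      Nat.le_of_dvd (Nat.sub_pos_of_lt (hV l hlV).prime.one_lt) hd'
    have h2 : m + 2 < 2 ^ (m + 2) := Nat.lt_two_pow_self
    omega
  refine ⟨2 ^ (n - V.card - M) • y, ?_, isEigen_nsmul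
    (fun l hl hlF' => he l hl ⟨(hF l hlF').2.1, (hF l hlF').2.2, hlF l hlF'⟩) _⟩
  rw [addOrderOf_nsmul' _ (pow_ne_zero _ (two_ne_zero (α := ℕ))), hy,
    Nat.gcd_eq_right (pow_dvd_pow 2 (Nat.sub_le _ _)), Nat.pow_div (Nat.sub_le _ _) two_pos]
  congr 1
  omega

end Fermat.Agent.Two.Lower

end
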