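import Fermat.Agent.RT.Mazur.Reduced

/-!
# Residual functions with orders divisible by a prime power

The class of the `n`-th part of the divisor of such an eigen function lifts to an eigen torsion
class of the Jacobian of level `M`.
-/

set_option autoImplicit false
set_option synthInstance.maxHeartbeats 400000
set_option maxHeartbeats 1000000
set_option linter.unusedSectionVars false

noncomputable section

namespace Fermat.Agent.Two.Lower

open ModularCurve AlgebraicCurve
open Fermat.Agent.Semistable Fermat.Agent.Arith Fermat.Agent.RT.Mazur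
open Fermat.Agent.RT.MazurP (IsRed IsHeckeImage heckeNorm heckeProd cls IsEigen)

/- Speed: find the subalgebra structures first, and do not look for residue field extensions. -/
attribute [local instance 2000] SubalgebraClass.toAlgebra
attribute [-instance] IsLocalRing.ResidueField.algebraOfIsIntegral
attribute [local instance 3000] Fermat.Agent.Semistable.instAlgebraKM

variable {A : ValuationSubring QBar} {q n p : ℕ} [hq : Fact q.Prime] [NeZero n] [hp : Fact p.Prime]
  {M : ℕ} [NeZero M]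

/-- The scalar identity for the image of `c * z * g ^ n`, in any field. -/
theorem heckeScalar_identity {k F : Type*} [Field k] [Field F] (φ : k →+* F) (c u : k)
    (z w X g : F) (e : ℤ) (n N : ℕ) (hc : c ≠ 0) (hg : g ≠ 0) :
    φ (c ^ N * u / c ^ e) * (w * X / g ^ e) ^ n * (φ c * (z * g ^ n)) ^ e =
      φ (c ^ N) * (φ u * (z ^ e * w ^ n) * X ^ n) := by
  have hgz : g ^ e ≠ 0 := zpow_ne_zero _ hg
  have hcz : φ c ^ e ≠ 0 := zpow_ne_zero _ ((map_ne_zero φ).mpr hc)
  have hcomm : (g ^ n) ^ e = (g ^ e) ^ n := by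
    rw [← zpow_natCast, ← zpow_mul, mul_comm, zpow_mul, zpow_natCast]
  rw [mul_zpow, mul_zpow, hcomm, div_pow]
  simp only [map_div₀, map_mul, map_pow, map_zpow₀]
  field_simp
  ring

/-- Every torsion class of order prime to `q` in the residual Jacobian lifts. -/
theorem exists_torsion_lift (hA : A.LiesOverPrime q) (hqM : ¬ q ∣ M) {m : ℕ}
    (hnm : n = p ^ m) (hpq : p ≠ q)
    (ξ : JZeroC (Res A) M) (hξ : n • ξ = 0) :
    ∃ x : JZero M, n • x = 0 ∧ reductionModL A M x = ξ := by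
  subst hnm
  have := Arith.residueField_isAlgClosed A
  have hch : CharP (Res A) q := Arith.residueField_charP hA hq.out
  have hM : (M : Res A) ≠ 0 := fun h => hqM ((CharP.cast_eq_zero_iff (Res A) q M).mp h)
  have : FF.IsFunctionField (Res A) (KM A M) := RedTorsion.isFunctionField_full rfl hM
  have : FF.IsFunctionField QBar (modularFunctionFieldBar M) := EichlerShimura.isFunctionField_bar
  have hqp : ¬ q ∣ p ^ m := fun h =>
    hpq ((Nat.prime_dvd_prime_iff_eq hq.out hp.out).mp (hq.out.dvd_of_dvd_pow h)).symm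
  have h1 : Nat.card (Pic0.torsion QBar (modularFunctionFieldBar M) (p ^ m)) =
      p ^ (2 * genusFF QBar (modularFunctionFieldBar M) * m) :=
    CurveTorsion.natCard_torsion_pow_of_charZero _ _ p m
  have h2 : Nat.card (Pic0.torsion (Res A) (KM A M) (p ^ m)) =
      p ^ (2 * genusFF (Res A) (KM A M) * m) :=
    CurveTorsion.natCard_torsion_of_isFrob (Mazur.Eisenstein.isFrob_coeffAut M A hA) p
      (fun h => hpq ((Nat.prime_dvd_prime_iff_eq hp.out hq.out).mp
        (hp.out.dvd_of_dvd_pow h))) m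
  rw [FiniteFlat.genusFF_eq_of_goodRed (FiniteFlat.goodRed (A := A) (N := M) hM)] at h2
  have hmem : ∀ x : Pic0.torsion QBar (modularFunctionFieldBar M) (p ^ m),
      reductionModL A M (x : JZero M) ∈ Pic0.torsion (Res A) (KM A M) (p ^ m) := fun x => by
    rw [Pic0.mem_torsion, ← map_zsmul, Pic0.mem_torsion.mp x.2, map_zero]
  let R : Pic0.torsion QBar (modularFunctionFieldBar M) (p ^ m) →+
      Pic0.torsion (Res A) (KM A M) (p ^ m) :=
    ((reductionModL A M).comp (Pic0.torsion QBar (modularFunctionFieldBar M) (p ^ m)).subtype).codRestrict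
      _ hmem
  have hR : Function.Injective R := by
    refine (injective_iff_map_eq_zero R).mpr fun x hx => Subtype.ext ?_
    refine S18.result M hqM A hA (EichlerShimura.reductionInputsModL hM) (p ^ m) hqp _ ?_
      (congrArg Subtype.val hx)
    rw [← natCast_zsmul]
    exact Pic0.mem_torsion.mp x.2
  have : Finite (Pic0.torsion (Res A) (KM A M) (p ^ m)) :=
    Nat.finite_of_card_ne_zero (by rw [h2]; exact pow_ne_zero _ hp.out.ne_zero)
  obtain ⟨x, hx⟩ := (hR.bijective_of_nat_card_le (le_of_eq (h2.trans h1.symm))).2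
    ⟨ξ, Pic0.mem_torsion.mpr (by rw [natCast_zsmul]; exact hξ)⟩
  exact ⟨x, by rw [← natCast_zsmul]; exact Pic0.mem_torsion.mp x.2, congrArg Subtype.val hx⟩

variable [CharP (Res A) q] [IsAlgClosed (Res A)] [FF.IsFunctionField (Res A) (KM A M)]

/-- The reduction of the class of `f` is the class of the `n`-th part of the divisor of the
reduction of `f`. -/
theorem exists_reduction_cls_pow (hM : (M : Res A) ≠ 0) {f : FB M} (hf : f ≠ 0)
    (hdvd : ∀ v : Place QBar (FB M), (n : ℤ) ∣ v.ord f) {z : KM A M}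
    (hz : IsRed A (f : LSer) (z : LaurentSeries (Res A))) :
    ∃ D : Divisor.degZero (K := Res A) (F := KM A M),
      (∀ v, (n : ℤ) * (D : Divisor (Res A) (KM A M)) v = v.ord z) ∧
        reductionModL A M (cls n hf hdvd) = Pic0.mk D := by
  have : FF.IsFunctionField QBar (modularFunctionFieldBar M) := EichlerShimura.isFunctionField_bar
  obtain ⟨g, c, r, hc, hr0, hg, hfg, hzg⟩ := exists_lattice_red hM hf hz
  set R := FiniteFlat.redF (FiniteFlat.lattice (A := A) (N := M) hM) g with hR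
  have hg0 : (g : FB M) ≠ 0 := fun h0 => hg (by
    rw [hR, show g = 0 from Subtype.ext h0, map_zero])
  set h := FiniteFlat.goodRed (N := M) (A := A) hM
  set φ : JacTorsion.divGrp QBar (FB M) n := ⟨Units.mk0 f hf, hdvd⟩
  set D := JacTorsion.divQuot φ
  have hdeg : D ∈ Divisor.degZero (K := QBar) (F := FB M) := JacTorsion.divQuot_mem_degZero _
  have hcls : cls n hf hdvd = Pic0.mk ⟨D, hdeg⟩ := rfl
  have htor : (n : ℤ) • Pic0.mk (⟨D, hdeg⟩ : Divisor.degZero (K := QBar) (F := FB M)) = 0 := by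
    rw [← hcls, natCast_zsmul]; exact RT.MazurP.nsmul_cls hf hdvd
  have e1 : FF.div QBar f = FF.div QBar (g : FB M) := Finsupp.ext fun w => by
    rw [FF.div_apply, FF.div_apply, hfg, Algebra.smul_def,
      w.ord_mul ((map_ne_zero _).mpr hc) hg0, FF.ord_algebraMap, zero_add]
  have hsm : (n : ℤ) • D = FF.div QBar f := JacTorsion.smul_divQuot φ
  have e2 : (n : ℤ) • FiniteFlat.redDiv h D = FF.div (Res A) R := by
    rw [← map_zsmul, hsm, e1]
    exact FiniteFlat.redDiv_div h g hg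
  refine ⟨⟨FiniteFlat.redDiv h D, Divisor.mem_degZero.mpr (by
    rw [FiniteFlat.degree_redDiv]; exact hdeg)⟩, fun v => ?_, ?_⟩
  · show (n : ℤ) * FiniteFlat.redDiv h D v = v.ord z
    rw [hzg, v.ord_mul ((map_ne_zero _).mpr hr0) hg, FF.ord_algebraMap, zero_add, ← FF.div_apply,
      ← e2, Finsupp.smul_apply, smul_eq_mul]
  · exact (congrArg (reductionModL A M) hcls).trans
      (FiniteFlat.reductionModL_mk_of_torsion (FiniteFlat.seriesCompat hM)
        (EichlerShimura.principalGeneratedByIntegral hM) _ (NeZero.ne n) htor)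

/-- The image of a Kummer function under the norm is the Kummer function of the image. -/
theorem exists_norm_cls_pow {l : ℕ} [NeZero l] (hl : l.Prime) {f : FB M} (hf : f ≠ 0)
    (hdvd : ∀ v : Place QBar (FB M), (n : ℤ) ∣ v.ord f) :
    ∃ (h : heckeNorm M l f ≠ 0) (h' : ∀ v : Place QBar (FB M), (n : ℤ) ∣ v.ord (heckeNorm M l f)),
      cls n h h' = heckeOperatorBar M ⟨l, hl⟩ (cls n hf hdvd) := by
  have hin := FF.heckeInputsAlong QBar M l
  have := hin.snd.snd.fst
  obtain ⟨f', hf', htor⟩ := GaloisReps.correspondence_toTorsion (heckeBetaBar QBar M l)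
    (heckeAlphaBar QBar M l) hin.snd.fst hin.fst hin.snd.snd.snd.snd.1
    hin.snd.snd.snd.fst hin.snd.snd.snd.snd.2
    (⟨Units.mk0 f hf, hdvd⟩ : JacTorsion.divGrp QBar (FB M) n)
  have e : ((f' : (FB M)ˣ) : FB M) = heckeNorm M l f := hf'
  refine ⟨e ▸ Units.ne_zero _, fun v => e ▸ f'.2 v, ?_⟩
  show _ = heckeOperatorAlong QBar M l _
  rw [heckeOperatorAlong, dif_pos hin]
  refine Eq.trans ?_ htor
  exact congrArg (fun u : JacTorsion.divGrp QBar (FB M) n =>
    (JacTorsion.toTorsion (Additive.ofMul u) : JZero M)) (Subtype.ext (Units.ext e.symm))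

/-- **An eigen residual function with orders divisible by `n` lifts to an eigen class of level
`M`**, whose annihilators are exponents `c` with `z ^ c` an `n`-th power. -/
theorem exists_eigen_lift (hA : A.LiesOverPrime q) (hqM : ¬ q ∣ M) {m : ℕ} (hnm : n = p ^ m)
    (hpq : p ≠ q)
    (G : ℕ → Prop) (a : ℕ → ℤ) (hG : ∀ l, l.Prime → G l → ¬ l ∣ q * M) {z : KM A M} (hz : z ≠ 0)
    (hord : ∀ v : Place (Res A) (KM A M), (n : ℤ) ∣ v.ord z)
    (heig : ∀ (l : ℕ) [NeZero l], l.Prime → G l → ∃ w ∈ KM A M, w ≠ 0 ∧ ∃ u : Res A, u ≠ 0 ∧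
      IsHeckeImage l (z : LaurentSeries (Res A)) (algebraMap (Res A) (LaurentSeries (Res A)) u *
        ((z : LaurentSeries (Res A)) ^ a l * w ^ n))) :
    ∃ x : JZero M, n • x = 0 ∧ IsEigen M G a x ∧
      ∀ c : ℕ, c • x = 0 → ∃ h : KM A M, z ^ c = h ^ n := by
  have hM : (M : Res A) ≠ 0 := fun h => hqM ((CharP.cast_eq_zero_iff (Res A) q M).mp h)
  have hqp : ¬ q ∣ n := fun h =>
    hpq ((Nat.prime_dvd_prime_iff_eq hq.out hp.out).mp (hq.out.dvd_of_dvd_pow (hnm ▸ h))).symm
  have : FF.IsFunctionField QBar (modularFunctionFieldBar M) := EichlerShimura.isFunctionField_bar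
  have hp0 : (n : ℤ) ≠ 0 := Int.natCast_ne_zero.mpr (NeZero.ne n)
  set Dz : Divisor (Res A) (KM A M) := divFloor (n : ℤ) (FF.div (Res A) z) with hDz
  have hDzv : ∀ v, (n : ℤ) * Dz v = v.ord z := fun v => by
    rw [hDz, divFloor_apply, FF.div_apply, Int.mul_ediv_cancel' (hord v)]
  have hDz0 : Dz ∈ Divisor.degZero (K := Res A) (F := KM A M) := by
    have : (n : ℤ) • Dz = FF.div (Res A) z := Finsupp.ext fun v => by
      rw [Finsupp.smul_apply, smul_eq_mul, hDzv, FF.div_apply]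
    have := congrArg Divisor.degree this
    rw [map_zsmul, FF.degree_div, smul_eq_mul] at this
    exact Divisor.mem_degZero.mpr ((mul_eq_zero.mp this).resolve_left hp0)
  obtain ⟨x, hpx, hx⟩ := exists_torsion_lift hA hqM hnm hpq (Pic0.mk ⟨Dz, hDz0⟩) (by
    rw [← natCast_zsmul]
    refine (QuotientAddGroup.eq_zero_iff ((n : ℤ) • (⟨Dz, hDz0⟩ :
      Divisor.degZero (K := Res A) (F := KM A M)))).mpr (AddSubgroup.mem_addSubgroupOf.mpr
      ⟨z, hz, fun v => ?_⟩)
    rw [AddSubgroup.coe_zsmul, Finsupp.smul_apply, smul_eq_mul, hDzv])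
  obtain ⟨φ, hφ⟩ := JacTorsion.toTorsion_surjective
    (⟨x, Pic0.mem_torsion.mpr (by rw [natCast_zsmul]; exact hpx)⟩ : Pic0.torsion QBar (FB M) n)
  set f : FB M := ((φ.toMul : (FB M)ˣ) : FB M) with hfdef
  have hf : f ≠ 0 := Units.ne_zero _
  have hdvd : ∀ v : Place QBar (FB M), (n : ℤ) ∣ v.ord f := φ.toMul.2
  have hclsx : cls n hf hdvd = x := Eq.trans
    (congrArg (fun u : JacTorsion.divGrp QBar (FB M) n =>
      (JacTorsion.toTorsion (Additive.ofMul u) : JZero M)) (Subtype.ext (Units.ext rfl)))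
    (congrArg Subtype.val hφ)
  obtain ⟨Z, hZ⟩ := IsRed.exists_of_ne_zero hA hq.out (mem_fracS_of_mem f)
    (fun h => hf (Subtype.ext h))
  set zf : KM A M := ⟨Z, isRed_mem_level hM hZ⟩ with hzf
  have hzf0 : zf ≠ 0 := fun h => hZ.1 (congrArg Subtype.val h)
  obtain ⟨Df, hDf, hDfx⟩ := exists_reduction_cls_pow (n := n) hM hf hdvd (z := zf) hZ
  rw [hclsx, hx] at hDfx
  -- the reduction of `f` is a constant times `z g ^ n`
  obtain ⟨g, hg, hgv⟩ : ∃ g : KM A M, g ≠ 0 ∧
      ∀ v : Place (Res A) (KM A M), v.ord g = (Df : Divisor (Res A) (KM A M)) v - Dz v := by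
    let D₀ : Divisor.degZero (K := Res A) (F := KM A M) := ⟨Dz, hDz0⟩
    have h1 : (Pic0.mk Df : Pic0 (Res A) (KM A M)) - Pic0.mk D₀ = 0 :=
      sub_eq_zero.mpr hDfx.symm
    have h2 : (QuotientAddGroup.mk (Df - D₀) : Pic0 (Res A) (KM A M)) = 0 :=
      (map_sub (QuotientAddGroup.mk' _) Df D₀).trans h1
    obtain ⟨g, hg, hgv⟩ := AddSubgroup.mem_addSubgroupOf.mp
      ((QuotientAddGroup.eq_zero_iff (Df - D₀)).mp h2)
    exact ⟨g, hg, fun v => (hgv v).symm⟩
  obtain ⟨c, hc⟩ : ∃ c : Res A, zf / (z * g ^ n) = algebraMap (Res A) (KM A M) c := by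
    refine FF.eq_algebraMap_of_ord_nonneg fun v => ?_
    rw [JacTorsion.ord_div v hzf0 (mul_ne_zero hz (pow_ne_zero _ hg)),
      v.ord_mul hz (pow_ne_zero _ hg), FF.ord_pow, ← hDf, hgv, ← hDzv]
    linarith
  rw [div_eq_iff (mul_ne_zero hz (pow_ne_zero _ hg))] at hc
  have hc0 : c ≠ 0 := fun h => hzf0 (by rw [hc, h, map_zero, zero_mul])
  -- the eigen class
  refine ⟨x, hpx, fun l hl hGl => ?_, fun c' hc' => ?_⟩
  swap
  · let D₀ : Divisor.degZero (K := Res A) (F := KM A M) := ⟨Dz, hDz0⟩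
    have h0 : (Pic0.mk (c' • D₀) : Pic0 (Res A) (KM A M)) = 0 :=
      (map_nsmul (QuotientAddGroup.mk' _) c' D₀).trans <| (congrArg (c' • ·) hx.symm).trans <|
        (map_nsmul (reductionModL A M) c' x).symm.trans <|
          (congrArg (reductionModL A M) hc').trans (map_zero _)
    obtain ⟨r, hr, hrv⟩ := AddSubgroup.mem_addSubgroupOf.mp ((QuotientAddGroup.eq_zero_iff
      (c' • D₀)).mp h0)
    obtain ⟨d, hd⟩ : ∃ d : Res A, z ^ c' / r ^ n = algebraMap (Res A) (KM A M) d := by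
      refine FF.eq_algebraMap_of_ord_nonneg fun v => ?_
      rw [JacTorsion.ord_div v (pow_ne_zero _ hz) (pow_ne_zero _ hr), FF.ord_pow, FF.ord_pow,
        ← hrv v, ← hDzv v, AddSubgroup.coe_nsmul, Finsupp.smul_apply, nsmul_eq_mul,
        show (n : ℤ) * ((c' : ℤ) * Dz v) = (c' : ℤ) * ((n : ℤ) * Dz v) by ring, sub_self]
    obtain ⟨d', hd'⟩ := IsAlgClosed.exists_pow_nat_eq d (NeZero.pos n)
    exact ⟨algebraMap (Res A) (KM A M) d' * r, by
      rw [mul_pow, ← map_pow, hd', ← hd, div_mul_cancel₀ _ (pow_ne_zero _ hr)]⟩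
  have : NeZero l := ⟨hl.ne_zero⟩
  have hlN := hG l hl hGl
  have hlM : ¬ l ∣ M := fun h => hlN (dvd_mul_of_dvd_right h q)
  have hql : ¬ q ∣ l := fun h =>
    hlN ((Nat.prime_dvd_prime_iff_eq hq.out hl).mp h ▸ dvd_mul_right q M)
  obtain ⟨w, hw, hw0, u, hu, himg⟩ := heig l hl hGl
  obtain ⟨Xg, hXg0, hXg⟩ := exists_heckeImage hA hM hl hlM hql hg
  obtain ⟨hn, hn', hncls⟩ := exists_norm_cls_pow (n := n) hl hf hdvd
  obtain ⟨X, hX, hXimg⟩ := RT.MazurP.exists_isRed_heckeImage hA hq.out hql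
    (mem_fracS_of_mem (heckeNorm M l f)) (fun ζ hζ => RT.MazurP.qExpand_heckeNorm hl hlM hζ f) hZ
  set W : KM A M := ⟨w, hw⟩ * Xg / g ^ a l with hWdef
  set C' : Res A := c ^ (l + 1) * u / c ^ a l
  have hXz : X = ((algebraMap (Res A) (KM A M) C' * W ^ n * zf ^ a l : KM A M) :
      LaurentSeries (Res A)) := by
    have hCimg : IsHeckeImage l (algebraMap (Res A) (LaurentSeries (Res A)) c)
        (algebraMap (Res A) (LaurentSeries (Res A)) (c ^ (l + 1))) := fun η _ => by
      rw [RT.MazurP.algebraMap_eq_C, RT.MazurP.algebraMap_eq_C, qExpand_C, RT.MazurP.heckeProd_C]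
    have hpow : IsHeckeImage l ((g : LaurentSeries (Res A)) ^ n)
        ((Xg : LaurentSeries (Res A)) ^ n) := fun η hη => by rw [map_pow, map_pow, hXg η hη]
    have hzf' : Z = algebraMap (Res A) (LaurentSeries (Res A)) c *
        ((z : LaurentSeries (Res A)) * (g : LaurentSeries (Res A)) ^ n) := congrArg Subtype.val hc
    rw [hzf'] at hXimg
    rw [heckeImage_unique hA hql hXimg (heckeImage_mul hCimg (heckeImage_mul himg hpow))]
    have hKM : (algebraMap (Res A) (KM A M) C' * W ^ n * zf ^ a l) =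
        algebraMap (Res A) (KM A M) (c ^ (l + 1)) *
          (algebraMap (Res A) (KM A M) u * (z ^ a l * (⟨w, hw⟩ : KM A M) ^ n) * Xg ^ n) := by
      rw [hc, hWdef]
      exact heckeScalar_identity (algebraMap (Res A) (KM A M)) c u _ _ _ _ (a l) n (l + 1) hc0 hg
    rw [hKM]
    push_cast
    rfl
  have hW0 : W ≠ 0 := div_ne_zero (mul_ne_zero (fun h => hw0 (congrArg Subtype.val h)) hXg0)
    (zpow_ne_zero _ hg)
  have hC' : C' ≠ 0 := div_ne_zero (mul_ne_zero (pow_ne_zero _ hc0) hu) (zpow_ne_zero _ hc0)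
  have hfa : ∀ v : Place QBar (FB M), (n : ℤ) ∣ v.ord (f ^ (-a l)) := fun v => by
    rw [v.ord_zpow]; exact dvd_mul_of_dvd_right (hdvd v) _
  have hy : ∀ v : Place QBar (FB M), (n : ℤ) ∣ v.ord (heckeNorm M l f * f ^ (-a l)) := fun v => by
    rw [v.ord_mul hn (zpow_ne_zero _ hf)]
    exact dvd_add (hn' v) (hfa v)
  have hyred : IsRed A ((heckeNorm M l f * f ^ (-a l) : FB M) : LSer)
      ((algebraMap (Res A) (KM A M) C' * W ^ n : KM A M) : LaurentSeries (Res A)) := by
    have h1 := hX.mul (hZ.zpow (-a l))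
    have e : algebraMap (Res A) (KM A M) C' * W ^ n =
        algebraMap (Res A) (KM A M) C' * W ^ n * zf ^ a l * zf ^ (-a l) := by
      rw [zpow_neg, mul_inv_cancel_right₀ (zpow_ne_zero _ hzf0)]
    rw [hXz] at h1
    rw [e]
    push_cast
    convert h1 using 1 <;> push_cast <;> rfl
  obtain ⟨Dy, hDy, hDyx⟩ := exists_reduction_cls_pow (n := n) hM
    (mul_ne_zero hn (zpow_ne_zero _ hf)) hy hyred
  have hzero : Pic0.mk Dy = 0 := by
    refine (QuotientAddGroup.eq_zero_iff Dy).mpr (AddSubgroup.mem_addSubgroupOf.mpr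
      ⟨W, hW0, fun v => ?_⟩)
    have := hDy v
    rw [v.ord_mul ((map_ne_zero _).mpr hC') (pow_ne_zero _ hW0), FF.ord_algebraMap, zero_add,
      FF.ord_pow] at this
    exact mul_left_cancel₀ hp0 this
  have hcls : cls n (mul_ne_zero hn (zpow_ne_zero _ hf)) hy =
      heckeOperatorBar M ⟨l, hl⟩ x + (-a l) • x := by
    rw [RT.MazurP.cls_mul hn (zpow_ne_zero _ hf) hn' hfa hy, hncls,
      RT.MazurP.cls_zpow hf hdvd (-a l) hfa, hclsx]
  have key := S18.result M hqM A hA (EichlerShimura.reductionInputsModL hM) n hqp _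
    (RT.MazurP.nsmul_cls (mul_ne_zero hn (zpow_ne_zero _ hf)) hy) (hDyx.trans hzero)
  rw [hcls, neg_smul] at key
  exact add_neg_eq_zero.mp key

end Fermat.Agent.Two.Lower

end
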