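import Fermat.Agent.RT.Mazur.Vertical

/-!
# Removing the vertical part of an eigen Kummer function, any exponent

An inertia-fixed eigen Kummer function of exponent `n` at level `q M` becomes, after a constant
and an `n`-th power, a function with both reductions nonzero, if some `a_l - (l + 1)` is prime
to `n`.
-/

set_option autoImplicit false
set_option synthInstance.maxHeartbeats 400000
set_option maxHeartbeats 1000000
set_option linter.unusedSectionVars false

noncomputable section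

namespace Fermat.Agent.Two.Lower

open ModularCurve AlgebraicCurve
open Fermat.Agent.Semistable Fermat.Agent.Arith Fermat.Agent.RT.Mazur
open Fermat.Agent.RT.MazurP (heckeNorm heckeProd cls IsEigen)

variable {A : ValuationSubring QBar} {q n : ℕ} [hq : Fact q.Prime] [NeZero n]
  {M : ℕ} [NeZero M] (hqM : ¬ q ∣ M)

/-- A root of a fixed function is fixed up to a constant. -/
theorem exists_fixed_root_pow {N : ℕ} [NeZero N] {h : FB N} (hh : h ≠ 0)
    (hfix : InertiaFixed A ((h : LSer) ^ n)) :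
    ∃ L : QBar, L ≠ 0 ∧ InertiaFixed A (algebraMap QBar LSer L * (h : LSer)) := by
  have h0 : (h : LSer) ≠ 0 := fun e => hh (Subtype.ext e)
  refine ⟨((h : LSer).leadingCoeff)⁻¹, inv_ne_zero (HahnSeries.leadingCoeff_ne_zero.mpr h0),
    fun τ hτ => ?_⟩
  obtain ⟨ζ₀, hζ₀⟩ := HasEnoughRootsOfUnity.exists_primitiveRoot QBar n
  have hz : (coeffMap (τ : QBar →+* QBar) (h : LSer) / (h : LSer)) ^ n = 1 := by
    rw [div_pow, ← map_pow, hfix τ hτ, div_self (pow_ne_zero _ h0)]
  obtain ⟨i, -, hi⟩ :=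
    (hζ₀.map_of_injective (algebraMap QBar LSer).injective).eq_pow_of_pow_eq_one hz
  rw [← map_pow, eq_comm, div_eq_iff h0] at hi
  have hlead : (τ : QBar →+* QBar) (h : LSer).leadingCoeff =
      ζ₀ ^ i * (h : LSer).leadingCoeff := by
    rw [← JacTorsion.coeffMap_leadingCoeff (τ : QBar →+* QBar), hi, HahnSeries.leadingCoeff_mul,
      algebraMap_laurentSeries_eq_single, HahnSeries.leadingCoeff_of_single]
  have hζi : ζ₀ ^ i ≠ 0 := pow_ne_zero _ (hζ₀.ne_zero (NeZero.ne n))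
  have hc : ∀ c : QBar, coeffMap (τ : QBar →+* QBar) (algebraMap QBar LSer c) =
      algebraMap QBar LSer ((τ : QBar →+* QBar) c) := fun c => by
    rw [RT.MazurP.algebraMap_eq_C, RT.MazurP.algebraMap_eq_C]
    exact HahnSeries.map_C c (τ : QBar →+* QBar)
  rw [map_mul, hc, map_inv₀, hlead, hi, mul_inv, map_mul, mul_mul_mul_comm, ← map_mul,
    inv_mul_cancel₀ hζi, map_one, one_mul]

variable [CharP (Res A) q] [FF.IsFunctionField (Res A) (KM A M)]

/-- Adjusting the vertical orders by a vertical function. -/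
theorem exists_gUnit_adjust_pow (hA : A.LiesOverPrime q) {f : FB (q * M)} (hf : f ≠ 0)
    (hfix : InertiaFixed A (f : LSer)) (k : ℤ)
    (hk : gOrd A q (iota2 M q hqM 1 f) - gOrd A q (iota2 M q hqM 0 f) = (n : ℤ) * k) :
    ∃ (c : QBar) (ψ : FB (q * M)), c ≠ 0 ∧ ψ ≠ 0 ∧
      InertiaFixed A ((algebraMap QBar (FB (q * M)) c * f * ψ ^ n : FB (q * M)) : LSer) ∧
      ∀ s, IsGUnit A (iota2 M q hqM s (algebraMap QBar (FB (q * M)) c * f * ψ ^ n)) := by
  set ι := iota2 M q hqM with hι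
  obtain ⟨φ, hφ0, hφfix, hφu0, hφu1⟩ := exists_vertical hqM hA
  have hq0 : (q : QBar) ≠ 0 := Nat.cast_ne_zero.mpr hq.out.ne_zero
  have hs : ∀ s, IsGUnit A (algebraMap QBar LSer ((q : QBar) ^ (-gOrd A q (ι s f))) * ι s f) :=
    fun s => gOrd_spec hA hq.out (iota2_fracS M q hqM s f) ((map_ne_zero _).mpr hf)
      (inertiaFixed_iota2 hqM hfix s)
  have ez : ((φ ^ (-k) : FB (q * M)) : LSer) = (φ : LSer) ^ (-k) :=
    map_zpow₀ (FB (q * M)).val φ (-k)
  refine ⟨(q : QBar) ^ (-gOrd A q (ι 0 f)), φ ^ (-k), zpow_ne_zero _ hq0, zpow_ne_zero _ hφ0, ?_,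
    fun s => ?_⟩
  · have e : ((algebraMap QBar (FB (q * M)) ((q : QBar) ^ (-gOrd A q (ι 0 f))) * f *
        (φ ^ (-k)) ^ n : FB (q * M)) : LSer) =
        algebraMap QBar LSer ((q : QBar) ^ (-gOrd A q (ι 0 f))) * (f : LSer) *
          ((φ : LSer) ^ (-k)) ^ n := by
      rw [← ez]
      rfl
    rw [e]
    exact ((inertiaFixed_algebraMap fun τ _ => by rw [map_zpow₀, map_natCast]).mul hfix).mul
      ((hφfix.zpow _).pow n)
  · have e1 : ι s (algebraMap QBar (FB (q * M)) ((q : QBar) ^ (-gOrd A q (ι 0 f))) * f *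
        (φ ^ (-k)) ^ n) = algebraMap QBar LSer ((q : QBar) ^ (-gOrd A q (ι 0 f))) * ι s f *
          (ι s φ ^ (-k)) ^ n := by
      rw [map_mul, map_mul, AlgHom.commutes, map_pow (ι s), map_zpow₀ (ι s)]
    rw [e1]
    fin_cases s
    · exact (hs 0).mul ((hφu0.zpow _).pow n)
    · have e : (q : QBar) ^ (-gOrd A q (ι 0 f)) =
          (q : QBar) ^ (-gOrd A q (ι 1 f)) * (((q : QBar)⁻¹) ^ (-k)) ^ n := by
        rw [← zpow_natCast, ← zpow_mul, inv_zpow', ← zpow_add₀ hq0]
        congr 1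
        linarith
      have e2 : algebraMap QBar LSer ((q : QBar) ^ (-gOrd A q (ι 0 f))) * ι 1 f *
          (ι 1 φ ^ (-k)) ^ n = algebraMap QBar LSer ((q : QBar) ^ (-gOrd A q (ι 1 f))) * ι 1 f *
            ((algebraMap QBar LSer (q : QBar)⁻¹ * ι 1 φ) ^ (-k)) ^ n := by
        rw [e, map_mul (algebraMap QBar LSer), map_pow (algebraMap QBar LSer),
          map_zpow₀ (algebraMap QBar LSer) ((q : QBar)⁻¹), mul_zpow, mul_pow]
        ring
      show IsGUnit A (algebraMap QBar LSer ((q : QBar) ^ (-gOrd A q (ι 0 f))) * ι 1 f *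
          (ι 1 φ ^ (-k)) ^ n)
      rw [e2]
      exact (hs 1).mul ((hφu1.zpow (-k)).pow n)

/-- Constants and `n`-th powers make both reductions of an eigen Kummer function nonzero. -/
theorem exists_gUnit_kummer_pow (hA : A.LiesOverPrime q) {l : ℕ} [NeZero l] (hl : l.Prime)
    (hlN : ¬ l ∣ q * M) {a : ℤ} (ha : IsCoprime (a - (1 + (l : ℤ))) (n : ℤ)) {f : FB (q * M)} (hf : f ≠ 0)
    (hfix : InertiaFixed A (f : LSer)) {h : FB (q * M)} (hh : h ≠ 0)
    (heq : heckeNorm (q * M) l f = f ^ a * h ^ n) :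
    ∃ (c : QBar) (ψ : FB (q * M)), c ≠ 0 ∧ ψ ≠ 0 ∧
      InertiaFixed A ((algebraMap QBar (FB (q * M)) c * f * ψ ^ n : FB (q * M)) : LSer) ∧
      ∀ s, IsGUnit A (iota2 M q hqM s (algebraMap QBar (FB (q * M)) c * f * ψ ^ n)) := by
  set ι := iota2 M q hqM
  have hfr : ∀ s x, ι s x ∈ fracS A := iota2_fracS M q hqM
  have hne : ∀ s {x : FB (q * M)}, x ≠ 0 → ι s x ≠ 0 := fun s x hx => (map_ne_zero _).mpr hx
  have hNfix : InertiaFixed A ((heckeNorm (q * M) l f : FB (q * M)) : LSer) := fun τ hτ => by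
    have e : galF (q * M) τ f = f :=
      Subtype.ext ((coe_arithmeticRingAut τ f).trans (hfix τ hτ))
    rw [← coe_arithmeticRingAut τ, show arithmeticRingAut (modularFunctionFieldFull (q * M)) τ
      (heckeNorm (q * M) l f) = galF (q * M) τ (heckeNorm (q * M) l f) from rfl,
      ← RT.MazurP.heckeNorm_galF hl hlN, e]
  have hpow : InertiaFixed A ((h : LSer) ^ n) := by
    have e : ((h : LSer)) ^ n =
        ((heckeNorm (q * M) l f : FB (q * M)) : LSer) * ((f : LSer) ^ a)⁻¹ := by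
      have := congrArg Subtype.val heq
      rw [this]
      have ez : ((f ^ a : FB (q * M)) : LSer) = (f : LSer) ^ a :=
        map_zpow₀ (FB (q * M)).val f a
      push_cast
      rw [ez, mul_comm ((f : LSer) ^ a), mul_inv_cancel_right₀
        (zpow_ne_zero _ fun e => hf (Subtype.ext e))]
    rw [e]
    exact hNfix.mul (hfix.zpow a).inv
  obtain ⟨L, hL, hLfix⟩ := exists_fixed_root_pow hh hpow
  set Lp : FB (q * M) := algebraMap QBar (FB (q * M)) (L ^ n)
  set h' : FB (q * M) := algebraMap QBar (FB (q * M)) L * h with hh'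
  have hh'0 : h' ≠ 0 := mul_ne_zero ((map_ne_zero _).mpr hL) hh
  have hLp : Lp * heckeNorm (q * M) l f = f ^ a * h' ^ n := by
    rw [heq, hh', mul_pow, ← map_pow]; ring
  have hLpfix : InertiaFixed A (Lp : LSer) := by
    have e : (Lp : LSer) =
        (h' : LSer) ^ n * ((h : LSer) ^ n)⁻¹ := by
      show algebraMap QBar LSer (L ^ n) = (algebraMap QBar LSer L * (h : LSer)) ^ n * _
      rw [mul_pow, ← map_pow, mul_inv_cancel_right₀ (pow_ne_zero _ fun e => hh (Subtype.ext e))]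
    rw [e]
    exact (hLfix.pow n).mul hpow.inv
  have hh'fix : InertiaFixed A (h' : LSer) := hLfix
  set v : Fin 2 → ℤ := fun s => gOrd A q (ι s f)
  set w : Fin 2 → ℤ := fun s => gOrd A q (ι s h')
  set δ : ℤ := gOrd A q (algebraMap QBar LSer (L ^ n))
  have hord : ∀ s, δ + ((l : ℤ) + 1) * v s = a * v s + (n : ℤ) * w s := by
    intro s
    have hLs : ι s Lp = algebraMap QBar LSer (L ^ n) := AlgHom.commutes _ _
    have hN : gOrd A q (ι s (heckeNorm (q * M) l f)) = ((l : ℤ) + 1) * v s :=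
      gOrd_heckeImage hA (hfr s f) (hne s hf) (inertiaFixed_iota2 hqM hfix s) (hfr s _)
        (fun ζ hζ => RT.MazurP.qExpand_iota2_heckeNorm q M l hqM hl hlN s hζ f)
    have h1 := congrArg (fun z => gOrd A q (ι s z)) hLp
    simp only [map_mul, map_pow, map_zpow₀] at h1
    rw [gOrd_mul hA hq.out (hfr s _) (hfr s _)
      (hne s ((map_ne_zero _).mpr (pow_ne_zero _ hL))) (hne s (RT.MazurP.heckeNorm_ne_zero hf))
      (inertiaFixed_iota2 hqM hLpfix s) (inertiaFixed_iota2 hqM hNfix s), hN, hLs,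
      gOrd_mul hA hq.out (zpow_mem (hfr s f) a) (pow_mem (hfr s h') n)
        (zpow_ne_zero _ (hne s hf)) (pow_ne_zero _ (hne s hh'0))
        ((inertiaFixed_iota2 hqM hfix s).zpow a) ((inertiaFixed_iota2 hqM hh'fix s).pow n),
      gOrd_pow hA hq.out (hfr s h') (hne s hh'0) (inertiaFixed_iota2 hqM hh'fix s)] at h1
    rw [h1]
    congr 1
    rcases Int.eq_nat_or_neg a with ⟨m, rfl | rfl⟩
    · rw [zpow_natCast, gOrd_pow hA hq.out (hfr s f) (hne s hf) (inertiaFixed_iota2 hqM hfix s)]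
    · rw [zpow_neg, zpow_natCast, gOrd_inv hA hq.out (pow_mem (hfr s f) m)
        (pow_ne_zero _ (hne s hf)) ((inertiaFixed_iota2 hqM hfix s).pow m),
        gOrd_pow hA hq.out (hfr s f) (hne s hf) (inertiaFixed_iota2 hqM hfix s), neg_mul]
  obtain ⟨k, hk⟩ : (n : ℤ) ∣ v 1 - v 0 := by
    have h1 : (n : ℤ) ∣ (a - (1 + (l : ℤ))) * (v 1 - v 0) :=
      ⟨w 0 - w 1, by linear_combination hord 0 - hord 1⟩
    exact ha.symm.dvd_of_dvd_mul_left h1
  exact exists_gUnit_adjust_pow hqM hA hf hfix k hk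

end Fermat.Agent.Two.Lower

end
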