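import Fermat.Agent.RT.Mazur.FinishCore
import Fermat.Agent.Two.Lower.Residual
import Fermat.Agent.Two.Lower.Vertical

/-!
# Inertia-fixed eigen classes of prime power order at level `q M`

The two reductions of such a class `x` lift to eigen classes `y₀, y₁` of level `M`, and Frobenius
is `-q w` on every multiple `c x` with `c y₀ = c y₁ = 0`; in particular its square is `q ^ 2`
there.
-/

set_option autoImplicit false
set_option synthInstance.maxHeartbeats 400000
set_option maxHeartbeats 1000000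
set_option linter.unusedSectionVars false

noncomputable section

namespace Fermat.Agent.Two.Lower

open ModularCurve AlgebraicCurve
open Fermat.Agent.Semistable Fermat.Agent.Arith Fermat.Agent.RT.Mazur
open Fermat.Agent.RT.MazurP (IsRed IsHeckeImage heckeNorm cls IsEigen)

variable {A : ValuationSubring QBar} {q n p : ℕ} [hq : Fact q.Prime] [NeZero n] [hp : Fact p.Prime]
  [CharP (Res A) q] [IsAlgClosed (Res A)] {M : ℕ} [NeZero M]
  [FF.IsFunctionField (Res A) (KM A M)]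

/-- Frobenius is `-q w` on toric classes. -/
theorem frobenius_smul_toric_pow (h : Setup A M q) (hell : NoElliptic M) (hn : (n : Res A) ≠ 0)
    {σ : GQ} (hσ : A.IsFrobeniusAt σ q) {D : Divisor.degZero (K := QBar) (F := FB (q * M))}
    (hD : IsToric h n (D : Divisor QBar (FB (q * M)))) :
    σ • (Pic0.mk D : JZero (q * M)) + q • (wAut h • (Pic0.mk D : JZero (q * M))) = 0 := by
  obtain ⟨y, hy0, hy⟩ := exists_principal_frobenius hell hn hσ hD
  set g := arithmeticGalois (modularFunctionFieldFull (q * M)) σ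
  show g • (Pic0.mk D : JZero (q * M)) + q • (wAut h • (Pic0.mk D : JZero (q * M))) = 0
  rw [SemilinearAut.pic0_smul_mk, SemilinearAut.pic0_smul_mk]
  exact (QuotientAddGroup.eq_zero_iff (SemilinearAut.degZeroSMulHom g D +
    q • SemilinearAut.degZeroSMulHom (wAut h) D)).mpr
    (AddSubgroup.mem_addSubgroupOf.mpr ⟨y, hy0, fun v => (hy v).symm⟩)

/-- **The reductions of an inertia-fixed eigen class.** -/
theorem exists_reduction_pair (h : Setup A M q) (hell : NoElliptic M) {m : ℕ} (hnm : n = p ^ m)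
    (hpq : p ≠ q) (G : ℕ → Prop) (a : ℕ → ℤ) (hG : ∀ l, l.Prime → G l → ¬ l ∣ q * M)
    (hl₀ : ∃ l, l.Prime ∧ G l ∧ IsCoprime (a l - (1 + (l : ℤ))) (n : ℤ))
    {x : JZero (q * M)} (hpx : n • x = 0) (hfix : ∀ τ ∈ A.inertiaSubgroupIn ℚ, τ • x = x)
    (heig : IsEigen (q * M) G a x) :
    ∃ y : Fin 2 → JZero M, (∀ s, n • y s = 0 ∧ IsEigen M G a (y s)) ∧
      ∀ c : ℕ, (∀ s, c • y s = 0) → ∀ σ : GQ, A.IsFrobeniusAt σ q →
        σ • (c • x) + q • (wAut h • (c • x)) = 0 := by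
  have hqn : ¬ q ∣ n := fun hd =>
    hpq ((Nat.prime_dvd_prime_iff_eq hq.out hp.out).mp (hq.out.dvd_of_dvd_pow (hnm ▸ hd))).symm
  obtain ⟨f₀, hf₀x, -, hf₀fix⟩ := exists_rational_kummer (N := q * M) A
    (⟨x, Pic0.mem_torsion.mpr (by rw [natCast_zsmul]; exact hpx)⟩ :
      Pic0.torsion QBar (FB (q * M)) n) hfix
  set f : FB (q * M) := ((f₀ : (FB (q * M))ˣ) : FB (q * M)) with hfdef
  have hf : f ≠ 0 := Units.ne_zero _
  have hfd : ∀ v : Place QBar (FB (q * M)), (n : ℤ) ∣ v.ord f := f₀.2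
  have hfx : cls n hf hfd = x := Eq.trans
    (congrArg (fun u : JacTorsion.divGrp QBar (FB (q * M)) n =>
      (JacTorsion.toTorsion (Additive.ofMul u) : JZero (q * M))) (Subtype.ext (Units.ext rfl)))
    (congrArg Subtype.val hf₀x)
  -- the vertical orders
  obtain ⟨l, hl, hGl, hla⟩ := hl₀
  have : NeZero l := ⟨hl.ne_zero⟩
  obtain ⟨k, hk, hkeq⟩ := RT.MazurP.exists_heckeNorm_eq l hl
    (⟨Units.mk0 f hf, hfd⟩ : JacTorsion.divGrp QBar (FB (q * M)) n) (a l) (by
      show heckeOperatorBar (q * M) ⟨l, hl⟩ (cls n hf hfd) = a l • cls n hf hfd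
      rw [hfx]; exact heig l hl hGl)
  obtain ⟨c, ψ, hc, hψ, hFfix, hFu⟩ :=
    exists_gUnit_kummer_pow h.hqM h.hA hl (hG l hl hGl) hla hf hf₀fix hk hkeq
  set g : FB (q * M) := algebraMap QBar (FB (q * M)) c * f * ψ ^ n with hgdef
  have hg0 : g ≠ 0 := mul_ne_zero (mul_ne_zero ((map_ne_zero _).mpr hc) hf) (pow_ne_zero _ hψ)
  have hgd := RT.MazurP.dvd_ord_const_mul_pow (m := n) hc hf hψ hfd
  have hgx : cls n hg0 hgd = x := (RT.MazurP.cls_const_mul_pow hc hf hψ hfd hg0).trans hfx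
  have hgl : g ∈ loc2 A (iota2 M q h.hqM) := (mem_loc2 _).mpr fun s => (hFu s).1
  set F : loc2 A (iota2 M q h.hqM) := ⟨g, hgl⟩
  have hne : ∀ s, red2 A (iota2 M q h.hqM) F s ≠ 0 := fun s => (hFu s).2
  have hz : ∀ s, redK h.hM F s ≠ 0 := fun s e => hne s (congrArg Subtype.val e)
  have hord := fun s => dvd_ord_red (m := n) (F := F) h.hA hell (NeZero.pos n) hFfix hgd hne h.hM s
  have hred : ∀ s, ∃ y : JZero M, n • y = 0 ∧ IsEigen M G a y ∧
      ∀ c : ℕ, c • y = 0 → ∃ r : KM A M, redK h.hM F s ^ c = r ^ n := fun s => by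
    refine exists_eigen_lift (z := redK h.hM F s) h.hA h.hqM hnm hpq G a hG (hz s) (hord s) fun l' _ hl' hGl' => ?_
    obtain ⟨k', hk', hk'eq⟩ := RT.MazurP.exists_heckeNorm_eq l' hl'
      (⟨Units.mk0 g hg0, hgd⟩ : JacTorsion.divGrp QBar (FB (q * M)) n) (a l') (by
        show heckeOperatorBar (q * M) ⟨l', hl'⟩ (cls n hg0 hgd) = a l' • cls n hg0 hgd
        rw [hgx]; exact heig l' hl' hGl')
    exact exists_eigen_reduction h.hA h.hM h.hqM hl' (hG l' hl' hGl') hk' hk'eq s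
      (IsRed.of_locS ((mem_loc2 _).mp hgl s) (hne s))
  choose y hy1 hy2 hy3 using hred
  refine ⟨y, fun s => ⟨hy1 s, hy2 s⟩, fun c' hc' σ hσ => ?_⟩
  choose r hr using fun s => hy3 s c' (hc' s)
  have hrne : ∀ s : Fin 2, r s ≠ 0 := fun s e =>
    pow_ne_zero c' (hz s) (by rw [hr, e, zero_pow (NeZero.ne n)])
  obtain ⟨η, hη, hηi, hηred⟩ := exists_unit_pair h.hqM h.hM (hrne 0) (hrne 1)
  set G' : loc2 A (iota2 M q h.hqM) := F ^ c' * ⟨_, hηi⟩ ^ n
  have hη' : (η : FB (q * M))⁻¹ ≠ 0 := inv_ne_zero hη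
  have hgc : ∀ v : Place QBar (FB (q * M)), (n : ℤ) ∣ v.ord (g ^ (c' : ℤ)) := fun v => by
    rw [v.ord_zpow]; exact dvd_mul_of_dvd_right (hgd v) _
  set t : FB (q * M) :=
    algebraMap QBar (FB (q * M)) 1 * g ^ (c' : ℤ) * ((η : FB (q * M))⁻¹) ^ n
  have ht0 : t ≠ 0 := mul_ne_zero (mul_ne_zero ((map_ne_zero _).mpr one_ne_zero)
    (zpow_ne_zero _ hg0)) (pow_ne_zero _ hη')
  have htd := RT.MazurP.dvd_ord_const_mul_pow (m := n) one_ne_zero (zpow_ne_zero _ hg0) hη' hgc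
  have htx : cls n ht0 htd = c' • x := by
    rw [RT.MazurP.cls_const_mul_pow one_ne_zero (zpow_ne_zero _ hg0) hη' hgc ht0,
      RT.MazurP.cls_zpow hg0 hgd, hgx, natCast_zsmul]
  have htG : (G' : FB (q * M)) = t := by
    show g ^ c' * ((η : FB (q * M))⁻¹) ^ n = t
    simp only [t, map_one, one_mul, zpow_natCast]
  set φ : JacTorsion.divGrp QBar (FB (q * M)) n := ⟨Units.mk0 t ht0, htd⟩
  rw [← htx]
  refine frobenius_smul_toric_pow h hell
    (fun e => hqn ((CharP.cast_eq_zero_iff (Res A) q n).mp e)) hσ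
    (D := ⟨JacTorsion.divQuot φ, JacTorsion.divQuot_mem_degZero _⟩)
    ⟨G', fun v => ?_, fun _ => 1, fun _ => one_ne_zero, fun s => ?_⟩
  · have e := DFunLike.congr_fun (JacTorsion.smul_divQuot φ) v
    rw [Finsupp.smul_apply, smul_eq_mul, FF.div_apply] at e
    rw [htG]
    exact e.symm
  · have e := congrArg (fun z : KM A M => (z : LaurentSeries (Res A))) (hr s)
    simp only [coe_redK, SubmonoidClass.coe_pow] at e
    have hne' : ((r s : KM A M) : LaurentSeries (Res A)) ≠ 0 := fun e' =>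
      hrne s (Subtype.ext e')
    rw [map_mul, map_pow, map_pow, Pi.mul_apply, Pi.pow_apply, Pi.pow_apply, e, hηred s, inv_pow,
      map_one]
    convert mul_inv_cancel₀ (pow_ne_zero n hne') using 2
    fin_cases s <;> rfl

/-- The involution squares to the identity on classes. -/
theorem wAut_smul_wAut (h : Setup A M q) (z : JZero (q * M)) : wAut h • (wAut h • z) = z := by
  rw [← mul_smul, show wAut h * wAut h = 1 from Subtype.ext (Prod.ext (RingEquiv.ext fun f => ?_)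
    (RingEquiv.ext fun _ => rfl)), one_smul]
  show (wAut h * wAut h) • f = f
  rw [mul_smul, h.wAut_smul, h.wAut_smul, wEquiv_wEquiv]

omit [NeZero n] in
/-- **The reductions of an inertia-fixed eigen class**, with the square of Frobenius. -/
theorem exists_reductions (h : Setup A M q) (hell : NoElliptic M) (hpq : p ≠ q) {G : ℕ → Prop}
    {a : ℕ → ℤ} (hG : ∀ l, l.Prime → G l → ¬ l ∣ q * M)
    (hl₀ : ∃ l, l.Prime ∧ G l ∧ ¬ (p : ℤ) ∣ a l - (1 + (l : ℤ))) {m : ℕ} {x : JZero (q * M)}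
    (hx : p ^ m • x = 0) (hfix : ∀ τ ∈ A.inertiaSubgroupIn ℚ, τ • x = x)
    (heig : IsEigen (q * M) G a x) {σ : GQ} (hσ : A.IsFrobeniusAt σ q) :
    ∃ y₀ y₁ : JZero M, (p ^ m • y₀ = 0 ∧ IsEigen M G a y₀) ∧ (p ^ m • y₁ = 0 ∧ IsEigen M G a y₁) ∧
      ∀ k : ℕ, k • y₀ = 0 → k • y₁ = 0 → σ • σ • (k • x) = (q ^ 2) • (k • x) := by
  obtain ⟨l, hl, hGl, hla⟩ := hl₀
  have : NeZero (p ^ m) := ⟨pow_ne_zero _ hp.out.ne_zero⟩
  have hco : IsCoprime (a l - (1 + (l : ℤ))) ((p ^ m : ℕ) : ℤ) := by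
    push_cast
    exact (((Nat.prime_iff_prime_int.mp hp.out).coprime_iff_not_dvd).mpr hla).symm.pow_right
  obtain ⟨y, hy, hc⟩ := exists_reduction_pair h hell (n := p ^ m) rfl hpq G a hG
    ⟨l, hl, hGl, hco⟩ hx hfix heig
  refine ⟨y 0, y 1, hy 0, hy 1, fun k h0 h1 => ?_⟩
  have key := hc k (fun s => by fin_cases s <;> assumption) σ hσ
  set z := k • x
  have e1 : σ • z = -(q • (wAut h • z)) := eq_neg_of_add_eq_zero_left key
  have hneg : ∀ w : JZero (q * M), σ • (-w) = -(σ • w) :=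
    map_neg (DistribSMul.toAddMonoidHom (JZero (q * M)) σ)
  have hnsm : ∀ (j : ℕ) (w : JZero (q * M)), σ • (j • w) = j • (σ • w) :=
    map_nsmul (DistribSMul.toAddMonoidHom (JZero (q * M)) σ)
  have hw : ∀ w : JZero (q * M), wAut h • (-(q • w)) = -(q • (wAut h • w)) := fun w =>
    (map_neg (DistribSMul.toAddMonoidHom (JZero (q * M)) (wAut h)) _).trans
      (congrArg Neg.neg (map_nsmul (DistribSMul.toAddMonoidHom (JZero (q * M)) (wAut h)) q w))
  rw [e1, hneg, hnsm, ← wAut_smul_galois h, e1, hw, wAut_smul_wAut h, sq, mul_nsmul]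
  have e2 : ∀ (j : ℕ) (w : JZero (q * M)), j • (-w) = -(j • w) := fun j w =>
    map_neg (nsmulAddMonoidHom j) w
  rw [e2, neg_neg]

end Fermat.Agent.Two.Lower

end
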