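import Fermat.Agent.Two.Lower.Embed
import Fermat.Agent.Two.Lower.Toric
import Fermat.Agent.RT.Mazur.Finish.Main

/-!
# Removing one prime from the level

An eigen class of order `p ^ m` at level `q L` gives one of order `p ^ (j + 1)` at level `L`, if a
Frobenius element at `q` has `r(σ)² - q²` not killed by `p ^ j`: the part of order `p ^ j` would be
toric.
-/

set_option autoImplicit false
set_option synthInstance.maxHeartbeats 400000
set_option maxHeartbeats 1000000
set_option linter.unusedSectionVars false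

noncomputable section

namespace Fermat.Agent.Two.Lower

open ModularCurve AlgebraicCurve Matrix
open Fermat.Agent.Semistable Fermat.Agent.Arith Fermat.Agent.RT.Mazur
open Fermat.Agent.RT.MazurP (IsEigen)

variable {p : ℕ} [hp : Fact p.Prime]

/-- **Descent of eigen classes.** -/
theorem hasClass_descend {q L : ℕ} [hq : Fact q.Prime] [NeZero L] (hqL : ¬ q ∣ L) (hpq : p ≠ q)
    (hell : RT.Mazur.NoElliptic L) {G : ℕ → Prop} {a : ℕ → ℤ}
    (hG : ∀ l, l.Prime → G l → ¬ l ∣ q * L) {m : ℕ} (hm : m ≠ 0) (R : Rep (p ^ m) G a)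
    {A : ValuationSubring QBar} (hA : A.LiesOverPrime q)
    (hunr : ∀ τ ∈ A.inertiaSubgroupIn ℚ, R.r τ = 1) {σ : GQ} (hσ : A.IsFrobeniusAt σ q) {j : ℕ}
    (hmove : ∃ e : Fin 2 → ZMod (p ^ m),
      p ^ j • ((R.r σ * R.r σ) *ᵥ e - q ^ 2 • e) ≠ 0)
    (hx : HasClass (q * L) G a (p ^ m)) : HasClass L G a (p ^ (j + 1)) := by
  have : CharP (Res A) q := residueField_charP hA Fact.out
  have : IsAlgClosed (Res A) := residueField_isAlgClosed A
  have hM : (L : Res A) ≠ 0 := fun e => hqL ((CharP.cast_eq_zero_iff (Res A) q L).mp e)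
  have : FF.IsFunctionField (Res A) (KM A L) := RedTorsion.isFunctionField_full rfl hM
  obtain ⟨ι, hι, hιe, hιg⟩ := exists_eigen_plane hm R hG hx
  obtain ⟨e, he⟩ := hmove
  obtain ⟨y₀, y₁, ⟨h0, h0e⟩, ⟨h1, h1e⟩, hk⟩ := exists_reductions
    (⟨hA, hqL, hM, goodM_of_ne_zero hM⟩ : Setup A L q) hell hpq hG (R.exists_ne_succ hm)
    (hιe e).1 (fun τ hτ => by rw [← hιg, hunr τ hτ, one_mulVec]) (hιe e).2 hσ
  by_cases hy0 : p ^ j • y₀ = 0
  · by_cases hy1 : p ^ j • y₁ = 0
    · refine absurd (hι ?_) he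
      have key := hk (p ^ j) hy0 hy1
      rw [← map_nsmul ι, ← hιg, ← hιg, ← map_nsmul ι, mulVec_smul, mulVec_smul,
        mulVec_mulVec] at key
      rw [smul_sub, map_sub, key, map_zero, smul_comm, sub_self]
    · exact hasClass_succ h1 hy1 h1e
  · exact hasClass_succ h0 hy0 h0e

end Fermat.Agent.Two.Lower

end
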